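import Mathlib
import Fermat.Prelude.Def_GaloisRep_ComplexConjugation
import Fermat.Prelude.Def_ModularCurve_ArithmeticGalois
import Fermat.Agent.F3.I2.Descent.Uncond
import Fermat.Agent.S24.Residue

/-!
# Cluster E' (descent, `EisReal`), leaf W-K2 (helper17): the base change `ℚ̄ → ℂ` of `J₀(N)`
commutes with the complex conjugation

`descBc_conj : descBc N (complexConjugation • y) = complexConjAlgEquiv • descBc N y`.

Proof: `θ (c f) = conj (θ f)` on functions (coefficientwise, `complexEmbedding_complexConjugation`);
for a place `v` the place `w = conj • ext v` of `F_ℂ` is not trivial on `F_ℚ̄`, so `w = ext v'`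
(`descExtQC_dich`), and `ord_{v'} f = ord_{c v} f` for all `f`, so `v' = c v`; hence on divisors
and on classes.
-/

set_option autoImplicit false
set_option linter.unusedSectionVars false
set_option linter.unusedVariables false
set_option linter.style.haveILetI false
set_option synthInstance.maxHeartbeats 400000

noncomputable section

open AlgebraicCurve ModularCurve

namespace Fermat.Agent.EDescW

open Fermat.Agent.F3I2 Fermat.Agent.RR

local notation "Qb" => AlgebraicClosure ℚ

section Generic

variable {K F : Type*} [Field K] [Field F] [Algebra K F]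

theorem bcConj_ord_smul (g : SemilinearAut K F) (w : Place K F) (f : F) :
    w.ord (g • f) = (g⁻¹ • w).ord f := by
  have h := SemilinearAut.ord_smul g (g⁻¹ • w) f
  rwa [smul_inv_smul] at h

/-- a place is determined by its order function. -/
theorem bcConj_place_ext {v v' : Place K F} (h : ∀ f : F, v'.ord f = v.ord f) : v' = v := by
  apply Place.ext
  ext f
  constructor
  · intro hf
    have h1 := Fermat.Agent.S24Res.ord_nonneg_of_mem v' hf
    rw [h f] at h1
    exact Fermat.Agent.S24Res.mem_of_ord_nonneg v h1
  · intro hf
    have h1 := Fermat.Agent.S24Res.ord_nonneg_of_mem v hf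
    rw [← h f] at h1
    exact Fermat.Agent.S24Res.mem_of_ord_nonneg v' h1

end Generic

variable (N : ℕ) [NeZero N]

/-- the conjugation of `F_ℚ̄(N)` -/
abbrev conjQ : SemilinearAut Qb (modularFunctionFieldBar N) :=
  arithmeticGalois (modularFunctionFieldFull N) complexConjugation

/-- the conjugation of `F_ℂ(N)` -/
abbrev conjC : SemilinearAut ℂ (laurentBaseChange ℂ (modularFunctionFieldFull N)) :=
  arithmeticGalois (modularFunctionFieldFull N) complexConjAlgEquiv

theorem descQbarC_conj (a : Qb) :
    descQbarC (complexConjugation a) = complexConjAlgEquiv (descQbarC a) :=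
  complexEmbedding_complexConjugation a

/-- `θ (c f) = conj (θ f)` -/
theorem descTheta_conj (f : modularFunctionFieldBar N) :
    descThetaQC N (conjQ N • f) = conjC N • descThetaQC N f := by
  apply Subtype.ext
  ext n
  rw [coe_descThetaQC_coeff]
  show descQbarC (complexConjugation ((f : LaurentSeries Qb).coeff n)) =
    complexConjAlgEquiv (((descThetaQC N f : laurentBaseChange ℂ (modularFunctionFieldFull N)) :
      LaurentSeries ℂ).coeff n)
  rw [coe_descThetaQC_coeff, descQbarC_conj]

theorem descTheta_conj_inv (f : modularFunctionFieldBar N) :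
    descThetaQC N ((conjQ N)⁻¹ • f) = (conjC N)⁻¹ • descThetaQC N f := by
  have h := descTheta_conj N ((conjQ N)⁻¹ • f)
  rw [smul_inv_smul] at h
  rw [h, inv_smul_smul]

/-- `ext (c v) = conj (ext v)` -/
theorem descExt_conj (v : Place Qb (modularFunctionFieldBar N)) :
    descExt N (conjQ N • v) = conjC N • descExt N v := by
  have hord : ∀ f : modularFunctionFieldBar N,
      (conjC N • descExt N v).ord (descThetaQC N f) = (conjQ N • v).ord f := by
    intro f
    have h1 := bcConj_ord_smul (conjC N) (conjC N • descExt N v) ((conjC N)⁻¹ • descThetaQC N f)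
    rw [smul_inv_smul, inv_smul_smul, ← descTheta_conj_inv, ord_descExt] at h1
    rw [h1]
    have h2 := bcConj_ord_smul (conjQ N) (conjQ N • v) ((conjQ N)⁻¹ • f)
    rw [smul_inv_smul, inv_smul_smul] at h2
    exact h2.symm
  rcases descExtQC_dich (Fermat.Agent.RRMod.isRRField_bar N) (conjC N • descExt N v) with
    ⟨v', hv'⟩ | h0
  · have hv'' : descExt N v' = conjC N • descExt N v := hv'
    have e : v' = conjQ N • v := by
      apply bcConj_place_ext
      intro f
      rw [← hord f, ← hv'', ord_descExt]
    rw [← e]
    exact hv''
  · exfalso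
    obtain ⟨t, ht⟩ := exists_uniformizer (conjQ N • v)
    have h1 := h0 t
    rw [hord t, ht] at h1
    exact one_ne_zero h1

/-- `bc (c D) = conj (bc D)` on divisors -/
theorem descBcDiv_conj (D : Divisor Qb (modularFunctionFieldBar N)) :
    descBcDiv N (conjQ N • D) = conjC N • descBcDiv N D := by
  induction D using Finsupp.induction with
  | zero => rw [smul_zero, map_zero, smul_zero]
  | single_add v n D _ _ ih =>
    rw [smul_add, map_add, map_add, smul_add, ih, SemilinearAut.smul_single, descBcDiv_single,
      descBcDiv_single, SemilinearAut.smul_single, descExt_conj]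

/-- **the base change commutes with the complex conjugation.** -/
theorem descBc_conj (y : JZero N) :
    descBc N (complexConjugation • y) = complexConjAlgEquiv • descBc N y := by
  obtain ⟨D, rfl⟩ := Pic0.mk_surjective y
  rw [galois_smul_pic0_def, galois_smul_pic0_def, SemilinearAut.pic0_smul_mk, descBc_mk,
    descBc_mk, SemilinearAut.pic0_smul_mk]
  refine congrArg Pic0.mk (Subtype.ext ?_)
  exact descBcDiv_conj N (D : Divisor Qb (modularFunctionFieldBar N))

end Fermat.Agent.EDescW
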