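/-
Cluster E' (Mazur descent), seat DESC-W, leaf W-CHAIN (pure algebra; architect helper34).

For an odd prime `l'` and a typed chain `C` of a finite `G_ℚ`-module `W`: the complex conjugation
fixes exactly `l'^α` elements, `α = C.alpha` the number of pieces of type `et`.

Proof sketch: induction along the chain, `#(F (i+1))^c = #(F i)^c · (l' if et i else 1)`.
* the complex conjugation inverts the roots of unity (`complexEmbedding_complexConjugation`, the
  embedding is injective and a root of unity has absolute value `1`);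
* `ι i w` is an `l'`-th root of unity for `w ∈ F (i+1)` (`ι_mul`, `ι_one_iff`, `index`), so on a piece
  of type `mu`:  `c • w + w ∈ F i`; on a piece of type `et`:  `c • w - w ∈ F i`;
* invariants are exact on groups of odd order: if `w ∈ F (i+1)` and `c • w - w ∈ F i` then
  `w - u` is fixed for some `u ∈ F i` (`u = (1/2) (w - c • w)`, division by `2` in a group of odd order).
-/
import Mathlib
import Fermat.Agent.E.Desc.Defs
import Fermat.Prelude.Def_GaloisRep_ComplexConjugation

set_option autoImplicit false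

noncomputable section

namespace Fermat.Agent.EDescW

open Fermat.Agent.EDesc

local notation "Qb" => AlgebraicClosure ℚ
local notation "GQb" => (AlgebraicClosure ℚ ≃ₐ[ℚ] AlgebraicClosure ℚ)

/-- the complex conjugation inverts the roots of unity. -/
theorem complexConjugation_root {n : ℕ} (hn : 0 < n) {ζ : Qb} (hζ : ζ ^ n = 1) :
    complexConjugation ζ = ζ⁻¹ := by
  apply (complexEmbedding : Qb →+* ℂ).injective
  have hz : (complexEmbedding ζ) ^ n = 1 := by rw [← map_pow, hζ, map_one]
  have hnorm := Complex.norm_eq_one_of_pow_eq_one hz hn.ne'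
  show complexEmbedding (complexConjugation ζ) = complexEmbedding ζ⁻¹
  rw [complexEmbedding_complexConjugation, map_inv₀, Complex.inv_eq_conj hnorm]

section Chain

variable {W : Type*} [AddCommGroup W] [DistribMulAction GQb W] {l' : ℕ}

/-- the fixed points of the complex conjugation in the step `F i` of the chain. -/
def chainFix (C : TypedChain W l') (i : ℕ) : AddSubgroup W where
  carrier := {w | w ∈ C.F i ∧ complexConjugation • w = w}
  zero_mem' := ⟨zero_mem _, smul_zero _⟩
  add_mem' := fun {a b} ha hb => ⟨add_mem ha.1 hb.1, by rw [smul_add, ha.2, hb.2]⟩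
  neg_mem' := fun {a} ha => ⟨neg_mem ha.1, by rw [smul_neg, ha.2]⟩

theorem mem_chainFix (C : TypedChain W l') (i : ℕ) (w : W) :
    w ∈ chainFix C i ↔ w ∈ C.F i ∧ complexConjugation • w = w := Iff.rfl

theorem chain_card_F (C : TypedChain W l') : ∀ i, i ≤ C.L → Nat.card (C.F i) = l' ^ i := by
  intro i
  induction i with
  | zero => intro _; rw [C.F_zero]; simp
  | succ i ih =>
    intro hi
    have h1 := AddSubgroup.relIndex_mul_relIndex ⊥ (C.F i) (C.F (i + 1)) bot_le (C.mono i)
    rw [AddSubgroup.relIndex_bot_left, AddSubgroup.relIndex_bot_left, ih (by omega),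
      C.index i (by omega)] at h1
    rw [← h1, pow_succ]

theorem chain_card (C : TypedChain W l') : Nat.card W = l' ^ C.L := by
  rw [← chain_card_F C C.L le_rfl, C.F_top]
  exact (Nat.card_congr (Equiv.Set.univ W)).symm

theorem chain_pow_nsmul (C : TypedChain W l') (w : W) : (l' ^ C.L) • w = 0 := by
  rw [← chain_card C]
  exact card_nsmul_eq_zero'

theorem chain_exists_half (hl : l'.Prime) (hl2 : l' ≠ 2) (C : TypedChain W l') :
    ∃ m : ℕ, ∀ w : W, 2 • (m • w) = w := by
  have hodd : Odd (l' ^ C.L) := (hl.odd_of_ne_two hl2).pow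
  obtain ⟨k, hk⟩ := hodd
  refine ⟨k + 1, fun w => ?_⟩
  have h0 := chain_pow_nsmul C w
  rw [← mul_nsmul', show 2 * (k + 1) = l' ^ C.L + 1 by omega, add_nsmul, h0, zero_add, one_nsmul]

theorem chain_ι_zero (C : TypedChain W l') {i : ℕ} (hi : i < C.L) (he : ¬ C.et i) :
    C.ι i 0 = 1 :=
  (C.ι_one_iff i hi he 0 (zero_mem _)).2 (zero_mem _)

theorem chain_ι_nsmul (C : TypedChain W l') {i : ℕ} (hi : i < C.L) (he : ¬ C.et i) {w : W}
    (hw : w ∈ C.F (i + 1)) (n : ℕ) : C.ι i (n • w) = C.ι i w ^ n := by
  induction n with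
  | zero => rw [zero_nsmul, pow_zero]; exact chain_ι_zero C hi he
  | succ n ih =>
    rw [succ_nsmul, C.ι_mul i hi he _ _ (nsmul_mem hw n) hw, ih, pow_succ]

/-- on a piece of type `mu` the complex conjugation acts by `-1`. -/
theorem chain_mu_add_mem (hl : l'.Prime) (C : TypedChain W l') {i : ℕ} (hi : i < C.L)
    (he : ¬ C.et i) {w : W} (hw : w ∈ C.F (i + 1)) : complexConjugation • w + w ∈ C.F i := by
  have hpow : C.ι i w ^ (l' ^ C.L) = 1 := by
    rw [← chain_ι_nsmul C hi he hw, chain_pow_nsmul, chain_ι_zero C hi he]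
  have hpos : 0 < l' ^ C.L := pow_pos hl.pos _
  have hne : C.ι i w ≠ 0 := by
    intro h0
    rw [h0, zero_pow hpos.ne'] at hpow
    exact zero_ne_one hpow
  have hcw : complexConjugation • w ∈ C.F (i + 1) := C.stable _ _ _ hw
  rw [← C.ι_one_iff i hi he _ (add_mem hcw hw), C.ι_mul i hi he _ _ hcw hw,
    C.ι_smul i hi he _ _ hw, complexConjugation_root hpos hpow, inv_mul_cancel₀ hne]

theorem chainFix_succ_mu (hl : l'.Prime) (hl2 : l' ≠ 2) (C : TypedChain W l') {i : ℕ}
    (hi : i < C.L) (he : ¬ C.et i) : chainFix C (i + 1) = chainFix C i := by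
  obtain ⟨m, hm⟩ := chain_exists_half hl hl2 C
  apply le_antisymm
  · intro w hw
    refine ⟨?_, hw.2⟩
    have h1 := chain_mu_add_mem hl C hi he hw.1
    rw [hw.2, ← two_nsmul] at h1
    have h2 : m • (2 • w) ∈ C.F i := nsmul_mem h1 m
    rw [nsmul_left_comm, hm] at h2
    exact h2
  · intro w hw
    exact ⟨C.mono i hw.1, hw.2⟩

theorem chainFix_inf (C : TypedChain W l') (i : ℕ) :
    C.F i ⊓ chainFix C (i + 1) = chainFix C i := by
  ext w
  rw [AddSubgroup.mem_inf, mem_chainFix, mem_chainFix]
  constructor
  · rintro ⟨h1, _, h3⟩; exact ⟨h1, h3⟩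
  · rintro ⟨h1, h3⟩; exact ⟨h1, C.mono i h1, h3⟩

theorem chainFix_sup_et (hl : l'.Prime) (hl2 : l' ≠ 2) (C : TypedChain W l') {i : ℕ}
    (hi : i < C.L) (he : C.et i) : chainFix C (i + 1) ⊔ C.F i = C.F (i + 1) := by
  obtain ⟨m, hm⟩ := chain_exists_half hl hl2 C
  apply le_antisymm
  · exact sup_le (fun w hw => hw.1) (C.mono i)
  · intro w hw
    have hd : complexConjugation • w - w ∈ C.F i := C.et_triv i hi he _ _ hw
    set d := complexConjugation • w - w with hd_def
    set u := m • d with hu_def
    have hu : u ∈ C.F i := nsmul_mem hd m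
    have h2u : 2 • u = d := hm d
    have hcc : complexConjugation • (complexConjugation • w) = w := by
      rw [← mul_smul, complexConjugation_mul_self, one_smul]
    have hcd : complexConjugation • d = -d := by
      rw [hd_def, smul_sub, hcc, neg_sub]
    have hcu : complexConjugation • u = -u := by
      have h := map_nsmul (DistribSMul.toAddMonoidHom W complexConjugation) m d
      rw [DistribSMul.toAddMonoidHom_apply, DistribSMul.toAddMonoidHom_apply] at h
      rw [hu_def, h, hcd, neg_nsmul]
    rw [AddSubgroup.mem_sup]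
    refine ⟨w + u, ⟨add_mem hw (C.mono i hu), ?_⟩, -u, neg_mem hu, by abel⟩
    rw [smul_add, hcu]
    have : complexConjugation • w = d + w := by rw [hd_def]; abel
    rw [this, ← h2u, two_nsmul]
    abel

theorem chainFix_card_succ_et (hl : l'.Prime) (hl2 : l' ≠ 2) (C : TypedChain W l') {i : ℕ}
    (hi : i < C.L) (he : C.et i) :
    Nat.card (chainFix C (i + 1)) = Nat.card (chainFix C i) * l' := by
  have hle : chainFix C i ≤ chainFix C (i + 1) := fun w hw => ⟨C.mono i hw.1, hw.2⟩
  have h1 := AddSubgroup.relIndex_mul_relIndex ⊥ (chainFix C i) (chainFix C (i + 1)) bot_le hle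
  rw [AddSubgroup.relIndex_bot_left, AddSubgroup.relIndex_bot_left] at h1
  have h2 : (chainFix C i).relIndex (chainFix C (i + 1)) = l' := by
    rw [← chainFix_inf C i, AddSubgroup.inf_relIndex_right,
      ← AddSubgroup.relIndex_sup_right (chainFix C (i + 1)) (C.F i), chainFix_sup_et hl hl2 C hi he,
      C.index i hi]
  rw [← h1, h2]

open Classical in
theorem chainFix_card (hl : l'.Prime) (hl2 : l' ≠ 2) (C : TypedChain W l') :
    ∀ i, i ≤ C.L → Nat.card (chainFix C i) = l' ^ ((Finset.range i).filter C.et).card := by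
  intro i
  induction i with
  | zero =>
    intro _
    have h0 : chainFix C 0 = ⊥ := by
      rw [eq_bot_iff]
      intro w hw
      have := hw.1
      rwa [C.F_zero] at this
    rw [h0]
    simp
  | succ i ih =>
    intro hi
    have hi' : i < C.L := by omega
    rw [Finset.range_add_one, Finset.filter_insert]
    by_cases he : C.et i
    · rw [if_pos he, Finset.card_insert_of_notMem (by simp), pow_succ,
        chainFix_card_succ_et hl hl2 C hi' he, ih hi'.le]
    · rw [if_neg he, chainFix_succ_mu hl hl2 C hi' he, ih hi'.le]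

end Chain

/-- **W-CHAIN** -/
theorem card_fixed_eq_pow_alpha {W : Type*} [AddCommGroup W] [DistribMulAction GQb W] [Finite W]
    {l' : ℕ} (hl : l'.Prime) (hl2 : l' ≠ 2) (C : TypedChain W l') :
    Nat.card {w : W // complexConjugation • w = w} = l' ^ C.alpha := by
  have h := chainFix_card hl hl2 C C.L le_rfl
  have he : {w : W // complexConjugation • w = w} ≃ chainFix C C.L :=
    Equiv.subtypeEquivRight fun w => by
      rw [mem_chainFix, C.F_top]
      exact ⟨fun hw => ⟨AddSubgroup.mem_top w, hw⟩, fun hw => hw.2⟩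
  rw [Nat.card_congr he, h]
  rfl

end Fermat.Agent.EDescW
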