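import Fermat.Agent.E.Desc.W.LiftCore
import Fermat.Agent.F3.I2.Kappa.CharOf
import Fermat.Agent.S22.GammaFG

/-!
# E' / Desc / W / Lift : W-LIFT (helper90)

There is `e > 0` such that for every `n > 0` and every character `χ` of `Γ₀(N)` with `χ ^ n = 1`,
trivial on the elements of trace `± 2`, the character `χ ^ e` is `charOf n c` for some
`c ∈ HomPar N = Hom_par(Γ₀(N), ℤ)`.
-/

set_option autoImplicit false
set_option linter.style.haveILetI false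

noncomputable section

namespace Fermat.Agent.EDescW

open CongruenceSubgroup
open scoped MatrixGroups
open Fermat.Agent.F3I2 Fermat.Agent.F3EC

/-- **W-LIFT**. -/
theorem exists_lift_exponent (N : ℕ) [NeZero N] :
    ∃ e : ℕ, 0 < e ∧ ∀ n : ℕ, 0 < n → ∀ χ : ↥(Gamma0 N) →* ℂˣ, (∀ γ, χ γ ^ n = 1) →
      (∀ γ : ↥(Gamma0 N),
        ((γ : SL(2, ℤ)) : Matrix (Fin 2) (Fin 2) ℤ).trace ^ 2 = 4 → χ γ = 1) →
      ∃ c : HomPar N, χ ^ e = charOf n c := by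
  obtain ⟨e, he, h⟩ := exists_exponent_lift ↥(Gamma0 N) (Fermat.Agent.S22.fg_Gamma0 N)
    {γ | ((γ : SL(2, ℤ)) : Matrix (Fin 2) (Fin 2) ℤ).trace ^ 2 = 4}
  refine ⟨e, he, fun n hn χ hχ hpar => ?_⟩
  haveI : NeZero n := ⟨hn.ne'⟩
  have hprim : IsPrimitiveRoot ((rootUnit n : ℂˣ) : ℂ) n :=
    IsPrimitiveRoot.coe_units_iff.2 (isPrimitiveRoot_rootUnit hn.ne')
  obtain ⟨c, hc, hcχ⟩ := h ℂˣ (rootUnit n) χ (fun γ => by
    have h1 : ((χ γ : ℂˣ) : ℂ) ^ n = 1 := by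
      rw [← Units.val_pow_eq_pow_val, hχ γ, Units.val_one]
    obtain ⟨i, -, hi⟩ := hprim.eq_pow_of_pow_eq_one h1
    refine ⟨(i : ℤ), ?_⟩
    show rootUnit n ^ (i : ℤ) = χ γ
    rw [zpow_natCast]
    apply Units.ext
    rw [Units.val_pow_eq_pow_val]
    exact hi) (fun γ hγ => hpar γ hγ)
  refine ⟨⟨c, fun γ hγ => hc γ hγ⟩, ?_⟩
  ext γ
  rw [MonoidHom.pow_apply, charOf_apply]
  exact congrArg Units.val (hcχ γ).symm

end Fermat.Agent.EDescW
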