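/-
Cluster E' (Mazur descent), seat DESC-W (helper34): `κ_n` as a FUNCTION `HomPar N → J₀(N)(ℚ̄)`,
with its graph `IsKappa (descBc N) n`, and its properties:
additivity, kernel `n · HomPar N`, Hecke-equivariance, and (from the leaves W-K1, W-K2, W-PAR,
W-LIFT, taken here as hypotheses `ThetaConjStatement`, `ParStatement`):
* `kap_conj`  : `c_∞ • κ_n c = κ_n (- J c)`;
* `exists_kap_eq_nsmul` : `e • J₀(N)[n] ⊆ κ_n (HomPar N)`.
-/
import Fermat.Agent.E.Desc.W.Basic
import Fermat.Agent.E.Desc.W.BcConj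
import Fermat.Agent.E.Desc.W.Lift
import Fermat.Agent.F3.I2.Final
import Fermat.Agent.F3.TorsFin.Exists

set_option autoImplicit false
set_option linter.style.haveILetI false

noncomputable section

namespace Fermat.Agent.EDescW

open ModularCurve ModularCurve.Period CongruenceSubgroup AlgebraicCurve
open Fermat.Agent.F3I2 Fermat.Agent.F3EC
open scoped MatrixGroups

/-- the statement of the leaf W-K1. -/
def ThetaConjStatement (N : ℕ) [NeZero N] : Prop :=
  ∀ (n : ℕ) (χ : ↥(Gamma0 N) →* ℂˣ) (c : Pic0 ℂ (FC N)),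
    IsTheta N n χ c → IsTheta N n (conjChar N χ) (complexConjAlgEquiv • c)

/-- the statement of the leaf W-PAR. -/
def ParStatement (N : ℕ) [NeZero N] : Prop :=
  ∀ (n : ℕ), n ≠ 0 → ∀ (χ : ↥(Gamma0 N) →* ℂˣ) (c : Pic0 ℂ (FC N)),
    IsTheta N n χ c → ∀ γ : ↥(Gamma0 N), IsPar γ → χ γ = 1

variable (N : ℕ) [NeZero N]

theorem kap_exists {n : ℕ} (hn : 0 < n) (c : HomPar N) :
    ∃ y : JZero N, IsKappa (descBc N) n c y :=
  exists_isKappa (Fermat.Agent.F3RatioCusp.dictD2a N) (Fermat.Agent.F3Charts.dictHPD N)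
    (fun n hn x' hx' => by
      obtain ⟨x, hx, -⟩ := descBc_surjective_torsion N n hn x' hx'
      exact ⟨x, hx⟩) hn c

/-- `κ_n` as a function (`0` for `n = 0`). -/
def kap (n : ℕ) (c : HomPar N) : JZero N :=
  if hn : 0 < n then (kap_exists N hn c).choose else 0

variable {N}

theorem kap_spec {n : ℕ} (hn : 0 < n) (c : HomPar N) : IsKappa (descBc N) n c (kap N n c) := by
  rw [kap, dif_pos hn]
  exact (kap_exists N hn c).choose_spec

theorem kap_eq {n : ℕ} (hn : 0 < n) {c : HomPar N} {y : JZero N}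
    (h : IsKappa (descBc N) n c y) : kap N n c = y :=
  (kap_spec hn c).unique (descBc_injective N) hn.ne' h

theorem kap_zero {n : ℕ} (hn : 0 < n) : kap N n 0 = 0 :=
  kap_eq hn (IsKappa.zero n)

theorem kap_add {n : ℕ} (hn : 0 < n) (c c' : HomPar N) :
    kap N n (c + c') = kap N n c + kap N n c' :=
  kap_eq hn ((kap_spec hn c).add hn.ne' (kap_spec hn c'))

theorem kap_neg {n : ℕ} (hn : 0 < n) (c : HomPar N) : kap N n (-c) = -kap N n c := by
  have h := kap_add hn c (-c)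
  rw [add_neg_cancel, kap_zero hn] at h
  exact (neg_eq_of_add_eq_zero_right h.symm).symm

theorem kap_sub {n : ℕ} (hn : 0 < n) (c c' : HomPar N) :
    kap N n (c - c') = kap N n c - kap N n c' := by
  rw [sub_eq_add_neg, kap_add hn, kap_neg hn, sub_eq_add_neg]

theorem kap_nsmul {n : ℕ} (hn : 0 < n) (m : ℕ) (c : HomPar N) :
    kap N n (m • c) = m • kap N n c := by
  induction m with
  | zero => rw [zero_nsmul, zero_nsmul, kap_zero hn]
  | succ m ih => rw [succ_nsmul, succ_nsmul, kap_add hn, ih]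

theorem nsmul_kap {n : ℕ} (hn : 0 < n) (c : HomPar N) : n • kap N n c = 0 :=
  (kap_spec hn c).nsmul_eq_zero (descBc_injective N)

theorem kap_eq_zero_iff {n : ℕ} (hn : 0 < n) (c : HomPar N) :
    kap N n c = 0 ↔ ∃ c' : HomPar N, c = n • c' := by
  constructor
  · intro h
    have h1 := kap_spec hn c
    rw [h] at h1
    obtain ⟨c', hc'⟩ := h1.ker (Fermat.Agent.F3Charts.dictConst N) hn.ne'
    exact ⟨c', by rw [hc', natCast_zsmul]⟩
  · rintro ⟨c', rfl⟩
    rw [kap_nsmul hn, nsmul_kap hn]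

theorem kap_hecke {n : ℕ} (hn : 0 < n) (ℓ : Nat.Primes) (hℓN : ¬ (ℓ : ℕ) ∣ N) (c : HomPar N) :
    kap N n (heckeHom N ℓ c) = heckeOperatorBar N ℓ (kap N n c) := by
  haveI : NeZero (ℓ : ℕ) := ⟨ℓ.2.ne_zero⟩
  exact kap_eq hn ((kap_spec hn c).hecke ℓ hℓN
    (Fermat.Agent.HeckeInputs.hi_heckeInputsAlong_complex N ℓ) (dictD3 N ℓ ℓ.2 hℓN) hn.ne'
    (descBc_hecke N ℓ (kap N n c)))

/-- **(K)** the complex conjugation on `κ_n`. -/
theorem kap_conj (hK1 : ThetaConjStatement N) {n : ℕ} (hn : 0 < n) (c : HomPar N) :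
    complexConjugation • kap N n c = kap N n (-conjHom N c) := by
  symm
  apply kap_eq hn
  have h := hK1 n _ _ (kap_spec hn c)
  rw [IsKappa, descBc_conj, ← conjChar_charOf]
  exact h

/-- **(SURJ)** `e • J₀(N)[n] ⊆ κ_n (HomPar N)`, `e` independent of `n`. -/
theorem exists_kap_eq_nsmul (N : ℕ) [NeZero N] (hPar : ParStatement N) :
    ∃ e : ℕ, 0 < e ∧ ∀ n : ℕ, 0 < n → ∀ y : JZero N, n • y = 0 →
      ∃ c : HomPar N, kap N n c = e • y := by
  obtain ⟨e, he, hlift⟩ := exists_lift_exponent N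
  refine ⟨e, he, fun n hn y hy => ?_⟩
  have hy' : n • descBc N y = 0 := by rw [← map_nsmul, hy, map_zero]
  obtain ⟨χ, hχ⟩ := Fermat.Agent.F3TF.exists_isTheta_of_torsion hn.ne' (descBc N y) hy'
  obtain ⟨c, hc⟩ := hlift n hn χ hχ.1 (fun γ hγ => hPar n hn.ne' χ _ hχ γ hγ)
  refine ⟨c, kap_eq hn ?_⟩
  rw [IsKappa, ← hc, map_nsmul]
  exact hχ.pow hn.ne' e

end Fermat.Agent.EDescW
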