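/-
Cluster E' (Mazur descent), seat DESC-W (helper34): THE COUNT.

`W(n)` = the Eisenstein part of `J₀(N)[n]` (classes killed by `n` and by all `m`-fold products of
the `η_r = T_r - (1 + r)`, `r ∉ S`, for some `m`).  With the complex conjugation `c_∞`:
  `#W(n)^{c_∞ = -1} ≤ C · #W(n)^{c_∞ = 1}`,   `C` independent of `n`.
Inputs (hypotheses here): `ThetaConjStatement N` (W-K1), `ParStatement N` (W-PAR),
`SwapStatement N` (W-SWAP).
-/
import Fermat.Agent.E.Desc.W.Kap
import Fermat.Agent.E.Desc.MainDefs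

set_option autoImplicit false
set_option linter.style.haveILetI false

noncomputable section

namespace Fermat.Agent.EDescW

open ModularCurve ModularCurve.Period CongruenceSubgroup AlgebraicCurve
open Fermat.Agent.F3I2 Fermat.Agent.F3EC Fermat.Agent.EDesc
open scoped MatrixGroups

/-- the statement of the leaf W-SWAP. -/
def SwapStatement (N : ℕ) [NeZero N] : Prop :=
  ∃ (ψ ψ' : HomPar N →ₗ[ℤ] HomPar N) (d : ℕ), 0 < d ∧ (∀ c, ψ' (ψ c) = d • c) ∧
    (∀ ℓ : Nat.Primes, ¬ (ℓ : ℕ) ∣ N → ∀ c, ψ (heckeHom N ℓ c) = heckeHom N ℓ (ψ c)) ∧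
    (∀ c, ψ (conjHom N c) = -conjHom N (ψ c))

/-! ### a counting lemma -/

/-- if the fibres of `f : A → B` lie in translates of a finite set `K`, then `#A ≤ #K · #B`. -/
theorem card_le_mul_of_fibre {A B G : Type*} [AddGroup G] [Finite B] (K : Set G) (hK : K.Finite)
    (ι : A → G) (hι : Function.Injective ι) (f : A → B)
    (h : ∀ a a' : A, f a = f a' → ι a - ι a' ∈ K) : Nat.card A ≤ Nat.card K * Nat.card B := by
  classical
  haveI : Finite K := hK.to_subtype
  rcases isEmpty_or_nonempty A with hA | hA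
  · rw [Nat.card_of_isEmpty]; exact Nat.zero_le _
  let rep : B → A := fun b => if hb : ∃ a, f a = b then hb.choose else Classical.arbitrary A
  have hrep : ∀ a : A, f (rep (f a)) = f a := by
    intro a
    have hb : ∃ a', f a' = f a := ⟨a, rfl⟩
    simp only [rep, dif_pos hb]
    exact hb.choose_spec
  let g : A → K × B := fun a => (⟨ι a - ι (rep (f a)), h a (rep (f a)) (hrep a).symm⟩, f a)
  have hg : Function.Injective g := by
    intro a a' haa
    have h1 : f a = f a' := congrArg Prod.snd haa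
    have h2 : ι a - ι (rep (f a)) = ι a' - ι (rep (f a')) :=
      congrArg (fun p : K × B => (p.1 : G)) haa
    rw [h1] at h2
    exact hι (sub_left_injective h2)
  calc Nat.card A ≤ Nat.card (K × B) := Nat.card_le_card_of_injective g hg
    _ = Nat.card K * Nat.card B := Nat.card_prod _ _

variable (N : ℕ) (S : Finset ℕ)

/-! ### the Eisenstein generators on `HomPar N` -/

/-- `η_r = T_r - (1 + r)` on `HomPar N`. -/
def hGen (r : Nat.Primes) : HomPar N →+ HomPar N :=
  (heckeHom N r).toAddMonoidHom - nsmulAddMonoidHom (1 + (r : ℕ))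

theorem hGen_apply (r : Nat.Primes) (c : HomPar N) :
    hGen N r c = heckeHom N r c - (1 + (r : ℕ)) • c := rfl

/-- the elements of `HomPar N` mapped into `n · HomPar N` by all products of `m` generators. -/
def hKer (n : ℕ) : ℕ → AddSubgroup (HomPar N)
  | 0 => (nsmulAddMonoidHom (α := HomPar N) n).range
  | m + 1 => ⨅ r : OutPrimes S, (hKer n m).comap (hGen N r.1)

theorem mem_hKer_zero {n : ℕ} {c : HomPar N} :
    c ∈ hKer N S n 0 ↔ ∃ c' : HomPar N, c = n • c' := by
  show c ∈ (nsmulAddMonoidHom (α := HomPar N) n).range ↔ _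
  rw [AddMonoidHom.mem_range]
  constructor
  · rintro ⟨c', hc'⟩
    exact ⟨c', hc'.symm⟩
  · rintro ⟨c', hc'⟩
    exact ⟨c', hc'.symm⟩

theorem mem_hKer_succ {n m : ℕ} {c : HomPar N} :
    c ∈ hKer N S n (m + 1) ↔ ∀ r : OutPrimes S, hGen N r.1 c ∈ hKer N S n m := by
  show c ∈ (⨅ r : OutPrimes S, (hKer N S n m).comap (hGen N r.1)) ↔ _
  simp only [AddSubgroup.mem_iInf, AddSubgroup.mem_comap]

variable [NeZero N]

variable {N S}

theorem kap_hGen {n : ℕ} (hn : 0 < n) (r : Nat.Primes) (hr : ¬ (r : ℕ) ∣ N) (c : HomPar N) :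
    kap N n (hGen N r c) = eisGen N r (kap N n c) := by
  rw [hGen_apply, eisGen_apply, kap_sub hn, kap_hecke hn r hr, kap_nsmul hn]

/-- the dictionary for the Eisenstein filtration. -/
theorem kap_mem_eisKer_iff (hNS : ∀ r : Nat.Primes, (r : ℕ) ∉ S → ¬ (r : ℕ) ∣ N) {n : ℕ}
    (hn : 0 < n) (m : ℕ) (c : HomPar N) :
    kap N n c ∈ eisKer N S m ↔ c ∈ hKer N S n m := by
  induction m generalizing c with
  | zero =>
    rw [eisKer_zero, AddSubgroup.mem_bot, kap_eq_zero_iff hn, mem_hKer_zero]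
  | succ m ih =>
    rw [mem_eisKer_succ, mem_hKer_succ]
    refine forall_congr' fun r => ?_
    rw [← kap_hGen hn r.1 (hNS r.1 r.2), ih]

theorem map_mem_hKer {ψ : HomPar N →ₗ[ℤ] HomPar N}
    (hψ : ∀ r : OutPrimes S, ∀ c, ψ (heckeHom N r.1 c) = heckeHom N r.1 (ψ c)) {n : ℕ} (m : ℕ)
    {c : HomPar N} (hc : c ∈ hKer N S n m) : ψ c ∈ hKer N S n m := by
  induction m generalizing c with
  | zero =>
    rw [mem_hKer_zero] at hc ⊢
    obtain ⟨c', rfl⟩ := hc
    exact ⟨ψ c', map_nsmul ψ n c'⟩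
  | succ m ih =>
    rw [mem_hKer_succ] at hc ⊢
    intro r
    have h := ih (hc r)
    rw [hGen_apply, map_sub, map_nsmul, hψ r] at h
    rw [hGen_apply]
    exact h

/-! ### the two eigen-parts -/

variable (N S)

/-- the Eisenstein part of `J₀(N)[n]` on which `c_∞` acts as `+1`. -/
def eisPlus (n : ℕ) : Set (JZero N) :=
  {x | (n • x = 0 ∧ ∃ m : ℕ, x ∈ eisKer N S m) ∧ complexConjugation • x = x}

/-- the Eisenstein part of `J₀(N)[n]` on which `c_∞` acts as `-1`. -/
def eisMinus (n : ℕ) : Set (JZero N) :=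
  {x | (n • x = 0 ∧ ∃ m : ℕ, x ∈ eisKer N S m) ∧ complexConjugation • x = -x}

theorem finite_tors (n : ℕ) (hn : 0 < n) : {x : JZero N | n • x = 0}.Finite :=
  Fermat.Agent.F3TF.torsionFinite N n hn

theorem finite_eisPlus {n : ℕ} (hn : 0 < n) : (eisPlus N S n).Finite :=
  (finite_tors N n hn).subset fun _ hx => hx.1.1

theorem finite_eisMinus {n : ℕ} (hn : 0 < n) : (eisMinus N S n).Finite :=
  (finite_tors N n hn).subset fun _ hx => hx.1.1

variable {N S}

/-- **(CORE)** -/
theorem card_eisMinus_le (hK1 : ThetaConjStatement N) (hPar : ParStatement N)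
    (hSwap : SwapStatement N) (hNS : ∀ r : Nat.Primes, (r : ℕ) ∉ S → ¬ (r : ℕ) ∣ N) :
    ∃ C : ℕ, 0 < C ∧ ∀ n : ℕ, 0 < n →
      Nat.card (eisMinus N S n) ≤ C * Nat.card (eisPlus N S n) := by
  classical
  obtain ⟨ψ, ψ', d, hd, hψ', hψT, hψJ⟩ := hSwap
  obtain ⟨e, he, hsurj⟩ := exists_kap_eq_nsmul N hPar
  have hde : 0 < d * e := Nat.mul_pos hd he
  have hKfin : {x : JZero N | (d * e) • x = 0}.Finite := finite_tors N (d * e) hde
  haveI : Finite {x : JZero N | (d * e) • x = 0} := hKfin.to_subtype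
  haveI : Nonempty {x : JZero N | (d * e) • x = 0} := ⟨⟨0, smul_zero _⟩⟩
  refine ⟨Nat.card {x : JZero N | (d * e) • x = 0}, Nat.card_pos, fun n hn => ?_⟩
  haveI : Finite (eisPlus N S n) := (finite_eisPlus N S hn).to_subtype
  -- the choice of `c_x`
  have hex : ∀ x : eisMinus N S n, ∃ c : HomPar N, kap N n c = e • (x : JZero N) :=
    fun x => hsurj n hn x x.2.1.1
  choose cx hcx using hex
  -- `Φ x = κ (ψ c_x)` lies in the plus part
  have hΦ : ∀ x : eisMinus N S n, kap N n (ψ (cx x)) ∈ eisPlus N S n := by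
    intro x
    obtain ⟨⟨hx0, m, hxm⟩, hxc⟩ := x.2
    refine ⟨⟨nsmul_kap hn _, m, ?_⟩, ?_⟩
    · rw [kap_mem_eisKer_iff hNS hn]
      refine map_mem_hKer (fun r c => hψT r.1 (hNS r.1 r.2) c) m ?_
      rw [← kap_mem_eisKer_iff hNS hn, hcx]
      exact AddSubgroup.nsmul_mem _ hxm e
    · rw [kap_conj hK1 hn, ← hψJ]
      -- `J c_x = c_x` modulo `n`
      have h1 : kap N n (conjHom N (cx x) - cx x) = 0 := by
        have h2 := kap_conj hK1 hn (cx x)
        rw [hcx, gal_smul_nsmul, hxc, kap_neg hn] at h2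
        rw [kap_sub hn, hcx]
        have h3 : kap N n (conjHom N (cx x)) = e • (x : JZero N) := by
          rw [neg_nsmul] at h2
          exact (neg_injective h2).symm
        rw [h3, sub_self]
      obtain ⟨c', hc'⟩ := (kap_eq_zero_iff hn _).1 h1
      have h5 : ψ (conjHom N (cx x)) = ψ (cx x) + n • ψ c' := by
        rw [← map_nsmul, ← map_add, ← hc']
        congr 1
        abel
      rw [h5, kap_add hn, kap_nsmul hn, nsmul_kap hn, add_zero]
  -- the fibres
  have hfib : ∀ x x' : eisMinus N S n,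
      (⟨kap N n (ψ (cx x)), hΦ x⟩ : eisPlus N S n) = ⟨kap N n (ψ (cx x')), hΦ x'⟩ →
      (x : JZero N) - (x' : JZero N) ∈ {x : JZero N | (d * e) • x = 0} := by
    intro x x' hxx
    have h1 : kap N n (ψ (cx x)) = kap N n (ψ (cx x')) := congrArg Subtype.val hxx
    have h2 : kap N n (ψ (cx x - cx x')) = 0 := by
      rw [map_sub, kap_sub hn, h1, sub_self]
    obtain ⟨c', hc'⟩ := (kap_eq_zero_iff hn _).1 h2
    have h3 : d • (cx x - cx x') = n • ψ' c' := by
      rw [← hψ', hc', map_nsmul]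
    have h4 : kap N n (d • (cx x - cx x')) = 0 := by
      rw [h3, kap_nsmul hn, nsmul_kap hn]
    rw [kap_nsmul hn, kap_sub hn, hcx, hcx, ← nsmul_sub, ← mul_nsmul'] at h4
    exact h4
  exact card_le_mul_of_fibre _ hKfin (fun x : eisMinus N S n => (x : JZero N))
    Subtype.coe_injective (fun x => (⟨kap N n (ψ (cx x)), hΦ x⟩ : eisPlus N S n)) hfib

end Fermat.Agent.EDescW
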