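/-
Cluster E' (Mazur descent), seat DESC-W (helper34): `EisOrd` (odd `l'`) and `EisReal` (all `l'`, in
particular `l' = 2`) from the count `card_eisMinus_le`.

With `τ = c_∞`, `W = W_k`, `W⁺ = ker (τ - 1)`, `R = (τ - 1) W ⊆ W⁻`:
  `#W = #W⁺ · #R`,  `#R ≤ #W⁻ ≤ C · #W⁺`,
so `#R² ≤ C · #W` (`EisReal`) and `#W ≤ C · (#W⁺)² = C · l'^(2 α)` (`EisOrd`, with W-CHAIN).
Hypotheses: the statements of the leaves W-K1, W-PAR, W-SWAP.
-/
import Fermat.Agent.E.Desc.W.Core
import Fermat.Agent.E.Desc.W.Chain
import Fermat.Agent.E.Desc.RealDefs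

set_option autoImplicit false
set_option linter.style.haveILetI false

noncomputable section

namespace Fermat.Agent.EDescW

open ModularCurve ModularCurve.Period CongruenceSubgroup AlgebraicCurve
open Fermat.Agent.F3I2 Fermat.Agent.F3EC Fermat.Agent.EDesc
open scoped MatrixGroups

local notation "GQb" => (AlgebraicClosure ℚ ≃ₐ[ℚ] AlgebraicClosure ℚ)

variable {N : ℕ} [NeZero N] {l' : ℕ} {S : Finset ℕ} {k : ℕ}

/-- the plus part of `W_k` as a subtype of `W_k`, and as a subset of `J₀(N)`. -/
def plusEquiv : {w : EisW N l' S k // complexConjugation • w = w} ≃ eisPlus N S (l' ^ k) where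
  toFun w := ⟨(w.1 : JZero N), ⟨w.1.2, congrArg Subtype.val w.2⟩⟩
  invFun x := ⟨⟨x.1, x.2.1⟩, Subtype.ext x.2.2⟩
  left_inv _ := rfl
  right_inv _ := rfl

/-- the minus part of `W_k` as a subtype of `W_k`, and as a subset of `J₀(N)`. -/
def minusEquiv : {w : EisW N l' S k // complexConjugation • w = -w} ≃ eisMinus N S (l' ^ k) where
  toFun w := ⟨(w.1 : JZero N), ⟨w.1.2, congrArg Subtype.val w.2⟩⟩
  invFun x := ⟨⟨x.1, x.2.1⟩, Subtype.ext x.2.2⟩
  left_inv _ := rfl
  right_inv _ := rfl

/-- `#W = #W⁺ · #(τ - 1) W`. -/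
theorem card_eq_plus_mul_real [Fact l'.Prime] (τ : GQb) :
    Nat.card (EisW N l' S k) =
      Nat.card {w : EisW N l' S k // τ • w = w} * Nat.card (eisRealSub N τ l' S k) := by
  have h1 := AddSubgroup.card_mul_index (eisTwist N τ l' S k).ker
  rw [AddSubgroup.index_ker] at h1
  rw [← h1]
  congr 1
  refine Nat.card_congr (Equiv.subtypeEquivRight fun w => ?_)
  rw [AddMonoidHom.mem_ker, eisTwist_apply, sub_eq_zero]

/-- `(τ - 1) W ⊆ W⁻` for an involution `τ`. -/
theorem card_real_le_minus [Fact l'.Prime] (τ : GQb) (hτ : τ * τ = 1) :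
    Nat.card (eisRealSub N τ l' S k) ≤ Nat.card {w : EisW N l' S k // τ • w = -w} := by
  refine Nat.card_le_card_of_injective
    (fun r => (⟨(r : EisW N l' S k), ?_⟩ : {w : EisW N l' S k // τ • w = -w})) ?_
  · obtain ⟨w, hw⟩ := r.2
    rw [← hw, eisTwist_apply, smul_sub, ← mul_smul, hτ, one_smul, neg_sub]
  · intro r r' h
    exact Subtype.ext (congrArg (fun w : {w : EisW N l' S k // τ • w = -w} => (w : EisW N l' S k)) h)

/-- the common core of `EisOrd` and `EisReal`. -/
theorem exists_card_bound (hK1 : ThetaConjStatement N) (hPar : ParStatement N)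
    (hSwap : SwapStatement N) (hl : l'.Prime)
    (hNS : ∀ r : Nat.Primes, (r : ℕ) ∉ S → ¬ (r : ℕ) ∣ N) :
    ∃ C : ℕ, 0 < C ∧ ∀ k : ℕ,
      Nat.card {w : EisW N l' S k // complexConjugation • w = -w} ≤
        C * Nat.card {w : EisW N l' S k // complexConjugation • w = w} := by
  obtain ⟨C, hC, h⟩ := card_eisMinus_le (S := S) hK1 hPar hSwap hNS
  refine ⟨C, hC, fun k => ?_⟩
  rw [Nat.card_congr (minusEquiv (N := N) (l' := l') (S := S) (k := k)),
    Nat.card_congr (plusEquiv (N := N) (l' := l') (S := S) (k := k))]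
  exact h (l' ^ k) (pow_pos hl.pos k)

/-- **EisReal** (every prime `l'`, in particular `l' = 2`), from the leaves. -/
theorem eisReal_of (hK1 : ThetaConjStatement N) (hPar : ParStatement N)
    (hSwap : SwapStatement N) (hl : l'.Prime)
    (hNS : ∀ r : Nat.Primes, (r : ℕ) ∉ S → ¬ (r : ℕ) ∣ N) :
    EisReal N complexConjugation l' S := by
  haveI : Fact l'.Prime := ⟨hl⟩
  obtain ⟨C, hC, h⟩ := exists_card_bound (l' := l') (S := S) hK1 hPar hSwap hl hNS
  refine ⟨C, hC, fun k => ?_⟩
  have h1 := card_eq_plus_mul_real (N := N) (l' := l') (S := S) (k := k) complexConjugation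
  have h2 := card_real_le_minus (N := N) (l' := l') (S := S) (k := k) complexConjugation
    complexConjugation_mul_self
  have h3 := h k
  calc Nat.card (eisRealSub N complexConjugation l' S k) ^ 2
      = Nat.card (eisRealSub N complexConjugation l' S k) *
          Nat.card (eisRealSub N complexConjugation l' S k) := sq _
    _ ≤ (C * Nat.card {w : EisW N l' S k // complexConjugation • w = w}) *
          Nat.card (eisRealSub N complexConjugation l' S k) :=
        Nat.mul_le_mul_right _ (h2.trans h3)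
    _ = C * Nat.card (EisW N l' S k) := by rw [h1, mul_assoc]

/-- **EisOrd** (odd `l'`), from the leaves. -/
theorem eisOrd_of (hK1 : ThetaConjStatement N) (hPar : ParStatement N)
    (hSwap : SwapStatement N) (hl : l'.Prime) (hl2 : l' ≠ 2)
    (hNS : ∀ r : Nat.Primes, (r : ℕ) ∉ S → ¬ (r : ℕ) ∣ N) :
    EisOrd N l' S := by
  haveI : Fact l'.Prime := ⟨hl⟩
  obtain ⟨C, hC, h⟩ := exists_card_bound (l' := l') (S := S) hK1 hPar hSwap hl hNS
  refine ⟨C, hC, fun k Ch => ?_⟩
  have h1 := card_eq_plus_mul_real (N := N) (l' := l') (S := S) (k := k) complexConjugation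
  have h2 := card_real_le_minus (N := N) (l' := l') (S := S) (k := k) complexConjugation
    complexConjugation_mul_self
  have h3 := h k
  have h4 := card_fixed_eq_pow_alpha hl hl2 Ch
  rw [h1]
  calc Nat.card {w : EisW N l' S k // complexConjugation • w = w} *
        Nat.card (eisRealSub N complexConjugation l' S k)
      ≤ Nat.card {w : EisW N l' S k // complexConjugation • w = w} *
          (C * Nat.card {w : EisW N l' S k // complexConjugation • w = w}) :=
        Nat.mul_le_mul_left _ (h2.trans h3)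
    _ = C * l' ^ (2 * Ch.alpha) := by rw [h4, pow_mul']; ring

end Fermat.Agent.EDescW
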