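import Mathlib
import Fermat.Agent.F3.I2.LocalOrders

/-!
# Cluster E' (descent), leaf W-PAR, part PAR-c (helper17): analysis at `i∞`

If `F` is holomorphic on `ℍ`, bounded at `i∞`, nonzero, `F (z + h) = ζ F z` with `ζ ^ n = 1`, and
`n ∣ ord_{q_h} (F ^ n)`, then `ζ = 1`.

Proof: `ζ = exp (2πi a / n)`, `0 ≤ a < n`; if `a ≠ 0` put `b = n - a` and
`E z = exp (2πi b z / (n h)) F z`: holomorphic, bounded, `h`-periodic, and `E ^ n = q_h ^ b F ^ n`,
so `n ord E = b + ord (F ^ n)` and `n ∣ b`, absurd.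
-/

set_option autoImplicit false
set_option linter.unusedSectionVars false
set_option linter.unusedVariables false

noncomputable section

namespace Fermat.Agent.EDescW

open UpperHalfPlane hiding I
open Filter Topology Complex Function
open scoped Manifold Real
open Fermat.Agent.F3I2

/-- `z ↦ exp (2πi t z)` on `ℍ`, for real `t`. -/
def parExp (t : ℝ) : ℍ → ℂ := fun z => Complex.exp (2 * π * I * t * z)

theorem parExp_apply (t : ℝ) (z : ℍ) : parExp t z = Complex.exp (2 * π * I * t * z) := rfl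

theorem parExp_mdiff (t : ℝ) : MDiff (parExp t) := by
  rw [UpperHalfPlane.mdifferentiable_iff]
  have : DifferentiableOn ℂ (fun z : ℂ => Complex.exp (2 * π * I * t * z)) {z | 0 < z.im} :=
    (differentiable_exp.comp (differentiable_id.const_mul _)).differentiableOn
  refine this.congr fun z hz => ?_
  simp [Function.comp, ofComplex_apply_of_im_pos hz, parExp]

theorem parExp_ne_zero (t : ℝ) (z : ℍ) : parExp t z ≠ 0 := Complex.exp_ne_zero _

theorem parExp_ne_zero' (t : ℝ) : parExp t ≠ 0 := by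
  intro h
  have := congrFun h UpperHalfPlane.I
  exact parExp_ne_zero t _ this

theorem parExp_norm (t : ℝ) (z : ℍ) : ‖parExp t z‖ = Real.exp (-(2 * π * t * z.im)) := by
  rw [parExp_apply, Complex.norm_exp]
  congr 1
  have : (2 * (π : ℂ) * I * t * z) = ((2 * π * t : ℝ) : ℂ) * (I * z) := by
    push_cast; ring
  rw [this, Complex.re_ofReal_mul]
  simp

theorem parExp_bdd {t : ℝ} (ht : 0 ≤ t) : IsBoundedAtImInfty (parExp t) := by
  rw [UpperHalfPlane.isBoundedAtImInfty_iff]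
  refine ⟨1, 0, fun z _ => ?_⟩
  rw [parExp_norm]
  rw [Real.exp_le_one_iff]
  have := z.im_pos
  have hπ := Real.pi_pos
  have : 0 ≤ 2 * π * t * z.im := by positivity
  linarith

theorem parExp_vadd (t : ℝ) (h : ℝ) (z : ℍ) :
    parExp t (h +ᵥ z) = Complex.exp (2 * π * I * (t * h : ℝ)) * parExp t z := by
  rw [parExp_apply, parExp_apply, ← Complex.exp_add]
  congr 1
  rw [UpperHalfPlane.coe_vadd]
  push_cast
  ring

theorem parExp_pow (t : ℝ) (n : ℕ) : parExp t ^ n = parExp (n * t) := by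
  funext z
  rw [Pi.pow_apply, parExp_apply, parExp_apply, ← Complex.exp_nat_mul]
  congr 1
  push_cast
  ring

theorem parExp_eq_qParam_pow {h : ℕ} (hh : 0 < h) (b : ℕ) (z : ℍ) :
    parExp ((b : ℝ) / h) z = Function.Periodic.qParam (h : ℝ) (z : ℂ) ^ b := by
  rw [parExp_apply, Function.Periodic.qParam, ← Complex.exp_nat_mul]
  congr 1
  have hh' : ((h : ℕ) : ℂ) ≠ 0 := by exact_mod_cast hh.ne'
  push_cast
  field_simp

theorem parExp_hasPeriod {h : ℕ} (hh : 0 < h) (b : ℕ) : HasPeriod h (parExp ((b : ℝ) / h)) := by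
  intro z
  rw [parExp_vadd]
  have hh' : ((h : ℕ) : ℝ) ≠ 0 := by exact_mod_cast hh.ne'
  have e : ((b : ℝ) / h * (h : ℝ)) = b := by field_simp
  rw [e]
  have : Complex.exp (2 * π * I * ((b : ℝ) : ℂ)) = 1 := by
    have := Complex.exp_nat_mul_two_pi_mul_I b
    rw [← this]
    congr 1
    push_cast
    ring
  rw [this, one_mul]

theorem ordInf_parExp {h : ℕ} (hh : 0 < h) (b : ℕ) : ordInf h (parExp ((b : ℝ) / h)) = b := by
  have hhR : (0 : ℝ) < (h : ℝ) := by exact_mod_cast hh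
  have hb0 : (0 : ℝ) ≤ (b : ℝ) / h := by positivity
  have hmd := parExp_mdiff ((b : ℝ) / h)
  have han := lo_analyticAt_cusp hh hmd (parExp_hasPeriod hh b) (parExp_bdd hb0)
  have key : ∀ m : ℕ, (if m = b then (1 : ℂ) else 0) =
      PowerSeries.coeff m (qExpansion (h : ℝ) (parExp ((b : ℝ) / h))) := by
    refine UpperHalfPlane.qExpansion_coeff_unique
      (ContinuousMap.mk (parExp ((b : ℝ) / h)) hmd.continuous) hhR han ?_
    intro τ
    have h1 : (ContinuousMap.mk (parExp ((b : ℝ) / h)) hmd.continuous : C(ℍ, ℂ)) τ =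
        (fun m : ℕ => (if m = b then (1 : ℂ) else 0) •
          Function.Periodic.qParam (h : ℝ) (τ : ℂ) ^ m) b := by
      show parExp ((b : ℝ) / h) τ = _
      rw [parExp_eq_qParam_pow hh]
      simp
    rw [h1]
    apply hasSum_single
    intro m hm
    simp [hm]
  have hq : qExpansion (h : ℝ) (parExp ((b : ℝ) / h)) = PowerSeries.monomial b (1 : ℂ) := by
    ext m
    rw [← key m, PowerSeries.coeff_monomial]
  unfold ordInf
  rw [hq, PowerSeries.order_monomial_of_ne_zero b (1 : ℂ) one_ne_zero]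
  simp


theorem par_exists_exp {n : ℕ} (hn : 0 < n) {ζ : ℂ} (hζ : ζ ^ n = 1) :
    ∃ a : ℕ, a < n ∧ Complex.exp (2 * π * I * ((a : ℝ) / n : ℝ)) = ζ := by
  have hnz : NeZero n := ⟨hn.ne'⟩
  have hζ0 : ζ ≠ 0 := by
    rintro rfl
    rw [zero_pow hn.ne'] at hζ
    exact zero_ne_one hζ
  have hu : (Units.mk0 ζ hζ0) ∈ rootsOfUnity n ℂ := by
    rw [_root_.mem_rootsOfUnity]
    apply Units.ext
    simpa using hζ
  obtain ⟨a, ha, h⟩ := (Complex.mem_rootsOfUnity n _).1 hu
  refine ⟨a, ha, ?_⟩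
  rw [Units.val_mk0] at h
  rw [← h]
  congr 1
  push_cast
  ring

/-- **PAR-c**: a twisted-periodic holomorphic function bounded at `i∞` whose `n`-th power has order
divisible by `n` at the cusp is periodic. -/
theorem par_root_eq_one {h n : ℕ} (hh : 0 < h) (hn : 0 < n) {F : ℍ → ℂ} (hF : MDiff F)
    (hFb : IsBoundedAtImInfty F) (hF0 : F ≠ 0) {ζ : ℂ} (hζ : ζ ^ n = 1)
    (hFζ : ∀ z : ℍ, F ((h : ℝ) +ᵥ z) = ζ * F z) (hdvd : (n : ℤ) ∣ ordInf h (F ^ n)) : ζ = 1 := by
  obtain ⟨a, ha, rfl⟩ := par_exists_exp hn hζ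
  by_contra hne
  have ha0 : a ≠ 0 := by
    rintro rfl
    apply hne
    simp
  have hhR : ((h : ℕ) : ℝ) ≠ 0 := by exact_mod_cast hh.ne'
  have hnR : ((n : ℕ) : ℝ) ≠ 0 := by exact_mod_cast hn.ne'
  -- `b = n - a`
  obtain ⟨b, hb⟩ : ∃ b : ℕ, a + b = n := ⟨n - a, by omega⟩
  have hb0 : 0 < b := by omega
  have hbn : b < n := by omega
  set t : ℝ := (b : ℝ) / (n * h) with ht
  have ht0 : 0 ≤ t := by positivity
  -- the function `E`
  have hEmd : MDiff (parExp t * F) := (parExp_mdiff t).mul hF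
  have hEb : IsBoundedAtImInfty (parExp t * F) := (parExp_bdd ht0).mul hFb
  have hE0 : parExp t * F ≠ 0 := by
    obtain ⟨τ, hτ⟩ : ∃ τ, F τ ≠ 0 := by
      by_contra hcon
      push Not at hcon
      exact hF0 (funext hcon)
    intro h0
    have := congrFun h0 τ
    simp only [Pi.mul_apply, Pi.zero_apply, mul_eq_zero] at this
    rcases this with h1 | h1
    · exact parExp_ne_zero t τ h1
    · exact hτ h1
  have hEp : HasPeriod h (parExp t * F) := by
    intro z
    simp only [Pi.mul_apply]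
    rw [parExp_vadd, hFζ]
    have e : Complex.exp (2 * π * I * ((t * (h : ℝ) : ℝ) : ℂ)) *
        Complex.exp (2 * π * I * (((a : ℝ) / n : ℝ) : ℂ)) = 1 := by
      rw [← Complex.exp_add]
      have e1 : (2 * π * I * ((t * (h : ℝ) : ℝ) : ℂ)) + 2 * π * I * (((a : ℝ) / n : ℝ) : ℂ)
          = 2 * π * I := by
        have e2 : t * (h : ℝ) + (a : ℝ) / n = 1 := by
          rw [ht]
          have : ((a : ℝ) + b) = n := by exact_mod_cast hb
          field_simp
          linarith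
        rw [← mul_add, ← Complex.ofReal_add, e2]
        simp
      rw [e1, Complex.exp_two_pi_mul_I]
    calc Complex.exp (2 * π * I * ((t * (h : ℝ) : ℝ) : ℂ)) * parExp t z *
          (Complex.exp (2 * π * I * (((a : ℝ) / n : ℝ) : ℂ)) * F z)
        = (Complex.exp (2 * π * I * ((t * (h : ℝ) : ℝ) : ℂ)) *
            Complex.exp (2 * π * I * (((a : ℝ) / n : ℝ) : ℂ))) * (parExp t z * F z) := by ring
      _ = parExp t z * F z := by rw [e, one_mul]
  -- `F ^ n`
  have hFn0 : F ^ n ≠ 0 := pow_ne_zero n hF0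
  have hFnp : HasPeriod h (F ^ n) := by
    intro z
    simp only [Pi.pow_apply]
    rw [hFζ, mul_pow, hζ, one_mul]
  have hFnb : IsBoundedAtImInfty (F ^ n) := lo_bounded_pow hFb n
  have hFnmd : MDiff (F ^ n) := hF.pow n
  -- `E ^ n = q ^ b * F ^ n`
  have hpow : (parExp t * F) ^ n = parExp ((b : ℝ) / h) * F ^ n := by
    rw [mul_pow, parExp_pow]
    congr 2
    rw [ht]
    field_simp
  have hbh : (0 : ℝ) ≤ (b : ℝ) / h := by positivity
  have h1 := ordInf_pow hh hEmd hEp hEb hE0 n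
  have h2 := ordInf_mul hh (parExp_mdiff ((b : ℝ) / h)) hFnmd (parExp_hasPeriod hh b) hFnp
    (parExp_bdd hbh) hFnb (parExp_ne_zero' _) hFn0
  rw [hpow, h2, ordInf_parExp hh b] at h1
  have h3 : (n : ℤ) ∣ (b : ℤ) := by
    have h4 : (n : ℤ) ∣ (b : ℤ) + ordInf h (F ^ n) := ⟨_, h1⟩
    exact (Int.dvd_add_left hdvd).1 h4
  have h5 : n ∣ b := by exact_mod_cast h3
  have := Nat.le_of_dvd hb0 h5
  omega


/-- the same statement in helper68's shape (`n ≠ 0`). -/
theorem eq_one_of_dvd_ordInf_pow {h n : ℕ} (hh : 0 < h) (hn : n ≠ 0) {F : ℍ → ℂ} (hF : MDiff F)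
    (hFb : IsBoundedAtImInfty F) (hF0 : F ≠ 0) {ζ : ℂ} (hζ : ζ ^ n = 1)
    (hper : ∀ z : ℍ, F ((h : ℝ) +ᵥ z) = ζ * F z)
    (hdvd : (n : ℤ) ∣ ordInf h (F ^ n)) : ζ = 1 :=
  par_root_eq_one hh (Nat.pos_of_ne_zero hn) hF hFb hF0 hζ hper hdvd

end Fermat.Agent.EDescW
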