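/-
Cluster E' (Mazur descent), seat DESC-W, leaf W-PAR (helper68): GLUE.

`IsTheta N n χ c` forces `χ` to be trivial on the elements of trace `± 2` of `Γ₀(N)`.
This file proves it from the three interfaces
* `ParGroupStatement` (PAR-a: elements of trace `± 2` of `SL(2,ℤ)` are `± g T^m g⁻¹`),
* `ParPlaceStatement N` (PAR-b: the place of `FC N` at the cusp `g ∞`, exact width),
* `ParAnStatement` (PAR-c: analysis at `i∞`).
-/
import Fermat.Agent.E.Desc.W.Basic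
import Fermat.Agent.F3.I2.Kappa.Exists

set_option autoImplicit false

noncomputable section

namespace Fermat.Agent.EDescW

open UpperHalfPlane CongruenceSubgroup ModularForm ModularCurve AlgebraicCurve
open Fermat.Agent.F3I2 Fermat.Agent.F3EC
open scoped MatrixGroups ModularForm Manifold

/-- PAR-a. -/
def ParGroupStatement : Prop :=
  ∀ γ : SL(2, ℤ), (γ : Matrix (Fin 2) (Fin 2) ℤ).trace ^ 2 = 4 →
    ∃ (g : SL(2, ℤ)) (m : ℤ),
      γ = g * ModularGroup.T ^ m * g⁻¹ ∨ γ = -(g * ModularGroup.T ^ m * g⁻¹)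

/-- PAR-b. -/
def ParPlaceStatement (N : ℕ) [NeZero N] : Prop :=
  ∀ g : SL(2, ℤ), ∃ (v : Place ℂ (FC N)) (h e : ℕ), 0 < h ∧ 0 < e ∧ h * e = 2 * N ∧
    (∀ k : ℤ, g * ModularGroup.T ^ k * g⁻¹ ∈ Gamma0 N ↔ (h : ℤ) ∣ k) ∧
    ∀ (w : ℤ) (A B : ModularForm (Gamma0 N) w) (x : FC N), A ≠ 0 → IsRatio N x A B →
      (e : ℤ) * v.ord x = ordInf (2 * N) (⇑A ∣[w] g) - ordInf (2 * N) (⇑B ∣[w] g)

/-- PAR-c. -/
def ParAnStatement : Prop :=
  ∀ (h n : ℕ), 0 < h → 0 < n → ∀ (F : ℍ → ℂ), MDiff F → IsBoundedAtImInfty F → F ≠ 0 →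
    ∀ ζ : ℂ, ζ ^ n = 1 → (∀ z : ℍ, F ((h : ℝ) +ᵥ z) = ζ * F z) →
      (n : ℤ) ∣ ordInf h (F ^ n) → ζ = 1

/-- `-1 ∈ Γ₀(N)`. -/
theorem par_neg_one_mem_Gamma0 (N : ℕ) : (-1 : SL(2, ℤ)) ∈ Gamma0 N := by
  rw [Gamma0_mem]
  simp

/-- slash by `-1` is multiplication by a constant depending only on the weight. -/
theorem par_slash_neg_one_apply (F : ℍ → ℂ) (w : ℤ) (z : ℍ) :
    (F ∣[w] (-1 : SL(2, ℤ))) z = F z * ((-1 : ℂ) ^ (-w)) := by
  rw [SL_slash_apply]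
  have h1 : (-1 : SL(2, ℤ)) • z = z := by
    rw [ModularGroup.SL_neg_smul, one_smul]
  have h2 : denom ((-1 : SL(2, ℤ))) z = -1 := by
    rw [ModularGroup.denom_apply]
    simp
  rw [h1, h2]

variable {N : ℕ}

/-- the character of a form is trivial at `-1` as soon as a nonzero form of the same weight
with trivial character exists. -/
theorem par_char_neg_one_eq_one {w : ℤ} {χ : ↥(Gamma0 N) →* ℂˣ} {f B : ℍ → ℂ}
    (hf : IsFormChar N w χ f) (hB : IsFormChar N w 1 B) (hf0 : f ≠ 0) (hB0 : B ≠ 0) :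
    χ ⟨-1, par_neg_one_mem_Gamma0 N⟩ = 1 := by
  obtain ⟨z, hz⟩ : ∃ z, B z ≠ 0 := by
    by_contra hcon
    push Not at hcon
    exact hB0 (funext hcon)
  obtain ⟨z', hz'⟩ : ∃ z, f z ≠ 0 := by
    by_contra hcon
    push Not at hcon
    exact hf0 (funext hcon)
  have h1 := congrFun (hB.slash ⟨-1, par_neg_one_mem_Gamma0 N⟩) z
  rw [par_slash_neg_one_apply] at h1
  simp only [MonoidHom.one_apply, Units.val_one, one_smul] at h1
  have hc : ((-1 : ℂ) ^ (-w)) = 1 := by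
    have h2 : B z * ((-1 : ℂ) ^ (-w)) = B z * 1 := by rw [h1, mul_one]
    exact mul_left_cancel₀ hz h2
  have h3 := congrFun (hf.slash ⟨-1, par_neg_one_mem_Gamma0 N⟩) z'
  rw [par_slash_neg_one_apply, hc, mul_one] at h3
  simp only [Pi.smul_apply, smul_eq_mul] at h3
  have h4 : ((χ ⟨-1, par_neg_one_mem_Gamma0 N⟩ : ℂˣ) : ℂ) = 1 := by
    have h5 : ((χ ⟨-1, par_neg_one_mem_Gamma0 N⟩ : ℂˣ) : ℂ) * f z' = 1 * f z' := by
      rw [← h3, one_mul]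
    exact mul_right_cancel₀ hz' h5
  exact Units.ext h4

/-- the twisted period of `f ∣ g` along the cusp `g ∞`. -/
theorem par_slash_vadd_of_char {w : ℤ} {χ : ↥(Gamma0 N) →* ℂˣ} {f : ℍ → ℂ}
    (hf : IsFormChar N w χ f) (g : SL(2, ℤ)) (h : ℕ)
    (hmem : g * ModularGroup.T ^ h * g⁻¹ ∈ Gamma0 N) (z : ℍ) :
    (f ∣[w] g) ((h : ℝ) +ᵥ z) = ((χ ⟨_, hmem⟩ : ℂˣ) : ℂ) * (f ∣[w] g) z := by
  rw [← slash_T_pow_apply (f ∣[w] g) w h z]
  have key : (f ∣[w] g) ∣[w] (ModularGroup.T ^ h) =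
      (f ∣[w] (g * ModularGroup.T ^ h * g⁻¹)) ∣[w] g := by
    rw [← SlashAction.slash_mul, ← SlashAction.slash_mul]
    congr 1
    group
  rw [key, hf.slash ⟨_, hmem⟩]
  rw [SL_slash_apply, SL_slash_apply]
  simp only [Pi.smul_apply, smul_eq_mul]
  ring

variable [NeZero N]

/-- **the divisibility at the cusp `g ∞`.** -/
theorem dvd_ordInf_of_isTheta_data (hB : ParPlaceStatement N) {n : ℕ} {w : ℤ}
    {χ : ↥(Gamma0 N) →* ℂˣ} {f B : ℍ → ℂ}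
    (hf : IsFormChar N w χ f) (hBf : IsFormChar N w 1 B) (hf0 : f ≠ 0) (hB0 : B ≠ 0)
    (hχn : ∀ γ, χ γ ^ n = 1) {x : FC N} (hx : IsRatioF N x (f ^ n) (B ^ n))
    {D : Divisor.degZero (K := ℂ) (F := FC N)} (hD : IsRootDiv n x D) (g : SL(2, ℤ)) :
    ∃ h : ℕ, 0 < h ∧ (∀ k : ℤ, g * ModularGroup.T ^ k * g⁻¹ ∈ Gamma0 N ↔ (h : ℤ) ∣ k) ∧
      (n : ℤ) ∣ ordInf h ((f ∣[w] g) ^ n) := by
  obtain ⟨v, h, e, hh, he, hhe, hwidth, hord⟩ := hB g
  refine ⟨h, hh, hwidth, ?_⟩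
  have hmem : g * ModularGroup.T ^ h * g⁻¹ ∈ Gamma0 N := by
    have := (hwidth (h : ℤ)).2 dvd_rfl
    rwa [zpow_natCast] at this
  obtain ⟨A, B', hA, hB', hA0, hAB⟩ := exists_isRatio_pow hf hBf hf0 hB0 hχn hx
  have h1 := hord _ A B' x hA0 hAB
  rw [hA, hB', pow_slash_SL2, pow_slash_SL2, ← hhe] at h1
  -- the two functions at the cusp
  set F : ℍ → ℂ := f ∣[w] g with hF
  set G : ℍ → ℂ := B ∣[w] g with hG
  have hFm : MDiff F := mdiff_slash_SL hf.mdiff w g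
  have hGm : MDiff G := mdiff_slash_SL hBf.mdiff w g
  have hFb : IsBoundedAtImInfty F := hf.bdd g
  have hGb : IsBoundedAtImInfty G := hBf.bdd g
  have hF0 : F ≠ 0 := slash_SL_ne_zero hf0 w g
  have hG0 : G ≠ 0 := slash_SL_ne_zero hB0 w g
  have hGp : HasPeriod h G := by
    intro z
    have := par_slash_vadd_of_char hBf g h hmem z
    simpa using this
  have hFnp : HasPeriod h (F ^ n) := by
    intro z
    have h2 : F ((h : ℝ) +ᵥ z) = ((χ ⟨_, hmem⟩ : ℂˣ) : ℂ) * F z :=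
      par_slash_vadd_of_char hf g h hmem z
    have h3 : ((χ ⟨_, hmem⟩ : ℂˣ) : ℂ) ^ n = 1 := by
      have := congrArg Units.val (hχn ⟨_, hmem⟩)
      simpa using this
    simp only [Pi.pow_apply]
    rw [h2, mul_pow, h3, one_mul]
  have hFn0 : F ^ n ≠ 0 := pow_ne_zero_fun hF0 n
  have hGn0 : G ^ n ≠ 0 := pow_ne_zero_fun hG0 n
  rw [ordInf_mul_period hh he (hFm.pow n) hFnp (lo_bounded_pow hFb n) hFn0,
    ordInf_mul_period hh he (hGm.pow n) (lo_hasPeriod_pow hGp n) (lo_bounded_pow hGb n) hGn0,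
    ordInf_pow hh hGm hGp hGb hG0, ← mul_sub] at h1
  have he' : (e : ℤ) ≠ 0 := by exact_mod_cast he.ne'
  have h2 : v.ord x = ordInf h (F ^ n) - (n : ℤ) * ordInf h G := mul_left_cancel₀ he' h1
  have h3 := hD.2 v
  refine ⟨(D : Divisor ℂ (FC N)) v + ordInf h G, ?_⟩
  rw [mul_add, h3, h2]
  ring

/-- **W-PAR from the three interfaces.** -/
theorem isTheta_parabolic_of (hA : ParGroupStatement) (hB : ParPlaceStatement N)
    (hC : ParAnStatement) {n : ℕ} (hn : n ≠ 0) {χ : ↥(Gamma0 N) →* ℂˣ}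
    {c : Pic0 ℂ (FC N)} (h : IsTheta N n χ c) {γ : ↥(Gamma0 N)} (hγ : IsPar γ) : χ γ = 1 := by
  obtain ⟨hχn, w, f, B, x, D, hf, hBf, hf0, hB0, hx, hD, -⟩ := h
  have hneg := par_char_neg_one_eq_one hf hBf hf0 hB0
  obtain ⟨g, m, hgm⟩ := hA (γ : SL(2, ℤ)) hγ
  obtain ⟨h, hh, hwidth, hdvd⟩ := dvd_ordInf_of_isTheta_data hB hf hBf hf0 hB0 hχn hx hD g
  have hmemh : g * ModularGroup.T ^ h * g⁻¹ ∈ Gamma0 N := by
    have := (hwidth (h : ℤ)).2 dvd_rfl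
    rwa [zpow_natCast] at this
  -- the generator of the stabiliser of the cusp has trivial character
  have hone : χ ⟨_, hmemh⟩ = 1 := by
    apply Units.ext
    refine hC h n hh (Nat.pos_of_ne_zero hn) (f ∣[w] g) (mdiff_slash_SL hf.mdiff w g) (hf.bdd g)
      (slash_SL_ne_zero hf0 w g) _ ?_ (fun z => par_slash_vadd_of_char hf g h hmemh z) hdvd
    have := congrArg Units.val (hχn ⟨_, hmemh⟩)
    simpa using this
  -- `g T^m g⁻¹ ∈ Γ₀(N)` and its character is trivial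
  have hmem' : g * ModularGroup.T ^ m * g⁻¹ ∈ Gamma0 N := by
    rcases hgm with h1 | h1
    · rw [← h1]; exact γ.2
    · have h2 : g * ModularGroup.T ^ m * g⁻¹ = (-1 : SL(2, ℤ)) * (γ : SL(2, ℤ)) := by
        rw [h1]; simp
      rw [h2]
      exact (Gamma0 N).mul_mem (par_neg_one_mem_Gamma0 N) γ.2
  obtain ⟨k, hk⟩ := (hwidth m).1 hmem'
  have hpow : (⟨_, hmem'⟩ : ↥(Gamma0 N)) = (⟨_, hmemh⟩ : ↥(Gamma0 N)) ^ k := by
    apply Subtype.ext
    rw [Subgroup.coe_zpow]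
    show g * ModularGroup.T ^ m * g⁻¹ = (g * ModularGroup.T ^ h * g⁻¹) ^ k
    rw [conj_zpow, hk, zpow_mul, zpow_natCast]
  have hone' : χ ⟨_, hmem'⟩ = 1 := by
    rw [hpow, map_zpow, hone, one_zpow]
  rcases hgm with h1 | h1
  · have : γ = ⟨_, hmem'⟩ := Subtype.ext h1
    rw [this, hone']
  · have : γ = (⟨-1, par_neg_one_mem_Gamma0 N⟩ : ↥(Gamma0 N)) * ⟨_, hmem'⟩ := by
      apply Subtype.ext
      rw [Subgroup.coe_mul]
      show (γ : SL(2, ℤ)) = -1 * (g * ModularGroup.T ^ m * g⁻¹)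
      rw [h1]; simp
    rw [this, map_mul, hneg, hone', one_mul]

end Fermat.Agent.EDescW
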