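/-
Cluster E' (Mazur descent), seat DESC-W, leaf W-PAR, part PAR-a (group theory; helper51).

Every `γ ∈ SL(2, ℤ)` with `trace² = 4` is `± g T^m g⁻¹` with `g ∈ SL(2, ℤ)`, `m ∈ ℤ`.

Proof: for trace `2`, `γ ≠ 1`, the vector `(q, 1 - p)` (or `(0, 1)`) is fixed by `γ`; divide by the
gcd, complete the primitive fixed vector `(a, c)` to `g ∈ SL(2, ℤ)` (Bézout); `g⁻¹ γ g` fixes
`(1, 0)` and has determinant `1`, so it is `T^m`.
-/
import Mathlib

set_option autoImplicit false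

namespace Fermat.Agent.EDescW

open Matrix
open scoped MatrixGroups

/-- a primitive fixed vector of a non-trivial element of trace `2`. -/
theorem par_exists_fixed_vec (γ : SL(2, ℤ))
    (h : (γ : Matrix (Fin 2) (Fin 2) ℤ).trace = 2) :
    ∃ a c : ℤ, IsCoprime a c ∧ γ 0 0 * a + γ 0 1 * c = a ∧ γ 1 0 * a + γ 1 1 * c = c := by
  have hdet : γ 0 0 * γ 1 1 - γ 0 1 * γ 1 0 = 1 := by
    have := γ.2
    rwa [Matrix.det_fin_two] at this
  have htr : γ 0 0 + γ 1 1 = 2 := by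
    rwa [Matrix.trace_fin_two] at h
  by_cases hq : γ 0 1 = 0 ∧ γ 0 0 = 1
  · refine ⟨0, 1, isCoprime_zero_left.2 isUnit_one, ?_, ?_⟩
    · rw [hq.1]; ring
    · have : γ 1 1 = 1 := by linarith [hq.2]
      rw [this]; ring
  · have hpos : 0 < Int.gcd (γ 0 1) (1 - γ 0 0) := by
      rw [Int.gcd_pos_iff]
      by_contra hcon
      push Not at hcon
      exact hq ⟨hcon.1, by linarith [hcon.2]⟩
    obtain ⟨a, c, hac, ha, hc⟩ := Int.exists_gcd_one hpos
    set d : ℤ := (Int.gcd (γ 0 1) (1 - γ 0 0) : ℤ) with hd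
    have hd0 : d ≠ 0 := by
      rw [hd]
      exact_mod_cast hpos.ne'
    have ha' : a * d = γ 0 1 := ha.symm
    have hc' : c * d = 1 - γ 0 0 := hc.symm
    refine ⟨a, c, Int.isCoprime_iff_gcd_eq_one.2 hac, ?_, ?_⟩
    · apply mul_left_cancel₀ hd0
      calc d * (γ 0 0 * a + γ 0 1 * c) = γ 0 0 * (a * d) + γ 0 1 * (c * d) := by ring
        _ = γ 0 0 * γ 0 1 + γ 0 1 * (1 - γ 0 0) := by rw [ha', hc']
        _ = γ 0 1 := by ring
        _ = d * a := by rw [← ha']; ring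
    · apply mul_left_cancel₀ hd0
      calc d * (γ 1 0 * a + γ 1 1 * c) = γ 1 0 * (a * d) + γ 1 1 * (c * d) := by ring
        _ = γ 1 0 * γ 0 1 + γ 1 1 * (1 - γ 0 0) := by rw [ha', hc']
        _ = 1 - γ 0 0 := by linear_combination (-1 : ℤ) * hdet + htr
        _ = d * c := by rw [← hc']; ring

/-- **PAR-a**, trace `2`. -/
theorem exists_conj_T_zpow_of_trace_two (γ : SL(2, ℤ))
    (h : (γ : Matrix (Fin 2) (Fin 2) ℤ).trace = 2) :
    ∃ (g : SL(2, ℤ)) (m : ℤ), γ = g * ModularGroup.T ^ m * g⁻¹ := by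
  obtain ⟨a, c, hco, h1, h2⟩ := par_exists_fixed_vec γ h
  obtain ⟨u, v, huv⟩ := hco
  have hdetg : (!![a, -v; c, u] : Matrix (Fin 2) (Fin 2) ℤ).det = 1 := by
    rw [Matrix.det_fin_two_of]
    linarith
  set g : SL(2, ℤ) := ⟨!![a, -v; c, u], hdetg⟩ with hg
  set M : SL(2, ℤ) := g⁻¹ * γ * g with hM
  have hMcoe : (M : Matrix (Fin 2) (Fin 2) ℤ) =
      !![u, v; -c, a] * (γ : Matrix (Fin 2) (Fin 2) ℤ) * !![a, -v; c, u] := by
    rw [hM, Matrix.SpecialLinearGroup.coe_mul, Matrix.SpecialLinearGroup.coe_mul,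
      Matrix.SpecialLinearGroup.coe_inv, hg]
    simp [Matrix.adjugate_fin_two_of]
  have hM00 : (M : Matrix (Fin 2) (Fin 2) ℤ) 0 0 = 1 := by
    rw [hMcoe]
    simp only [Matrix.mul_apply, Fin.sum_univ_two, Matrix.of_apply,
      Matrix.cons_val_zero, Matrix.cons_val_one, Matrix.cons_val', Matrix.cons_val_fin_one]
    linear_combination u * h1 + v * h2 + huv
  have hM10 : (M : Matrix (Fin 2) (Fin 2) ℤ) 1 0 = 0 := by
    rw [hMcoe]
    simp only [Matrix.mul_apply, Fin.sum_univ_two, Matrix.of_apply,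
      Matrix.cons_val_zero, Matrix.cons_val_one, Matrix.cons_val', Matrix.cons_val_fin_one]
    linear_combination (-c) * h1 + a * h2
  have hM11 : (M : Matrix (Fin 2) (Fin 2) ℤ) 1 1 = 1 := by
    have := M.2
    rw [Matrix.det_fin_two, hM00, hM10] at this
    linarith
  have hMT : M = ModularGroup.T ^ ((M : Matrix (Fin 2) (Fin 2) ℤ) 0 1) := by
    apply Subtype.ext
    rw [ModularGroup.coe_T_zpow]
    ext i j
    fin_cases i <;> fin_cases j
    · simpa using hM00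
    · simp
    · simpa using hM10
    · simpa using hM11
  refine ⟨g, (M : Matrix (Fin 2) (Fin 2) ℤ) 0 1, ?_⟩
  rw [← hMT, hM]
  group

/-- **PAR-a**: every element of `SL(2, ℤ)` of trace `± 2` is `± g T^m g⁻¹`. -/
theorem exists_conj_T_zpow (γ : SL(2, ℤ))
    (h : (γ : Matrix (Fin 2) (Fin 2) ℤ).trace ^ 2 = 4) :
    ∃ (g : SL(2, ℤ)) (m : ℤ),
      γ = g * ModularGroup.T ^ m * g⁻¹ ∨ γ = -(g * ModularGroup.T ^ m * g⁻¹) := by
  have h2 : (γ : Matrix (Fin 2) (Fin 2) ℤ).trace = 2 ∨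
      (γ : Matrix (Fin 2) (Fin 2) ℤ).trace = -2 := by
    have h3 : ((γ : Matrix (Fin 2) (Fin 2) ℤ).trace - 2) *
        ((γ : Matrix (Fin 2) (Fin 2) ℤ).trace + 2) = 0 := by linear_combination h
    rcases mul_eq_zero.1 h3 with h4 | h4
    · left; linarith
    · right; linarith
  rcases h2 with h2 | h2
  · obtain ⟨g, m, hgm⟩ := exists_conj_T_zpow_of_trace_two γ h2
    exact ⟨g, m, Or.inl hgm⟩
  · have h3 : ((-γ : SL(2, ℤ)) : Matrix (Fin 2) (Fin 2) ℤ).trace = 2 := by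
      rw [Matrix.SpecialLinearGroup.coe_neg, Matrix.trace_neg, h2]
      norm_num
    obtain ⟨g, m, hgm⟩ := exists_conj_T_zpow_of_trace_two (-γ) h3
    refine ⟨g, m, Or.inr ?_⟩
    rw [← hgm, neg_neg]

end Fermat.Agent.EDescW
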