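/-
Cluster E' (Mazur descent), seat DESC-W / W-PAR, part PAR-b (helper7): the place of `FC N` at the
cusp `g ∞`, with its exact width `h`, its index `e` (`h e = 2N`), and the order of a ratio of
forms at it.  Exact shape of helper68's note (03:40Z).

Proof: the points → places half of the abstract dictionary (`F3Places.exists_place_ord_eq_of_smul`,
`F3Places.ramification_eq_card`) for the valuation of `LL (2N)` at `∞`, with the EXACT width
(`par_exists_width`: the subgroup `{k | γ⁻¹ T^k γ ∈ Γ₀(N)}` of `ℤ` is `h ℤ`), and the ratio bridge at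
the cusps (`F3RatioCusp.ratioCusp_charts`).
-/
import Fermat.Agent.E.Desc.W.Basic
import Fermat.Agent.F3.Dict.ChartsC
import Fermat.Agent.F3.Dict.RatioCuspFinal

set_option autoImplicit false
set_option linter.style.haveILetI false
set_option linter.unusedSectionVars false

noncomputable section

namespace Fermat.Agent.EDescW

open UpperHalfPlane CongruenceSubgroup AlgebraicCurve
open scoped MatrixGroups ModularForm
open Fermat.Agent.F3I2 Fermat.Agent.F3Dict Fermat.Agent.F3Places Fermat.Agent.F3Charts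

open Classical in
/-- the EXACT width: `{k | γ⁻¹ g^k γ ∈ H} = h ℤ` and `h * #{k < s | γ⁻¹ g^k γ ∈ H} = s`. -/
theorem par_exists_width {Γ : Type*} [Group Γ] (H : Subgroup Γ) (g γ : Γ) (s : ℕ) (hs : 0 < s)
    (hgs : γ⁻¹ * g ^ s * γ ∈ H) :
    ∃ h : ℕ, 0 < h ∧
      h * ((Finset.range s).filter (fun k => γ⁻¹ * g ^ k * γ ∈ H)).card = s ∧
      ∀ k : ℤ, γ⁻¹ * g ^ k * γ ∈ H ↔ (h : ℤ) ∣ k := by
  obtain ⟨a, ha⟩ := Int.subgroup_cyclic (conjPowSubgroup H g γ)
  have hmem : ∀ k : ℤ, γ⁻¹ * g ^ k * γ ∈ H ↔ a ∣ k := by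
    intro k
    rw [← mem_conjPowSubgroup, ha, ← AddSubgroup.zmultiples_eq_closure,
      Int.mem_zmultiples_iff]
  have hsa : a ∣ (s : ℤ) := by
    rw [← hmem]
    simpa using hgs
  have ha0 : a ≠ 0 := by
    rintro rfl
    have := zero_dvd_iff.mp hsa
    omega
  refine ⟨a.natAbs, Int.natAbs_pos.mpr ha0, ?_, ?_⟩
  · have hdvd : a.natAbs ∣ s := Int.natAbs_dvd_natAbs.mpr hsa
    obtain ⟨m, rfl⟩ := hdvd
    have hfil : (Finset.range (a.natAbs * m)).filter (fun k => γ⁻¹ * g ^ k * γ ∈ H) =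
        (Finset.range (a.natAbs * m)).filter (fun k => a.natAbs ∣ k) := by
      refine Finset.filter_congr fun k _ => ?_
      have := hmem (k : ℤ)
      rw [zpow_natCast] at this
      rw [this, Int.dvd_natCast]
    rw [hfil, card_filter_dvd_range _ _ (Int.natAbs_pos.mpr ha0)]
  · intro k
    rw [hmem k, Int.natAbs_dvd]

section abstract

variable {K F L Γ : Type*} [Field K] [IsAlgClosed K] [CharZero K]
    [Field F] [Algebra K F] [Field L] [Algebra K L]
    [Group Γ] [MulSemiringAction Γ L] [SMulCommClass Γ K L]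

/-- one fibre, points → places, with the EXACT width. -/
theorem par_exists_place_of_point (φ : F →ₐ[K] L)
    (t : F) (httr : Transcendental K t)
    (hfin : ∃ Γ' : Subgroup Γ, Γ'.FiniteIndex ∧ ∀ g ∈ Γ', ∀ x : L, g • x = x)
    (ht : ∀ g : Γ, g • φ t = φ t)
    (hfix : ∀ x : L, (∀ g : Γ, g • x = x) → x ∈ IntermediateField.adjoin K {φ t})
    (H : Subgroup Γ) (hH : ∀ g : Γ, g ∈ H ↔ ∀ x : F, g • φ x = φ x)
    (w : Valuation L (WithZero (Multiplicative ℤ))) (s : ℕ) (g : Γ)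
    (hwK : ∀ a : K, a ≠ 0 → w (algebraMap K L a) = 1)
    (hs : 0 < s)
    (hw : w (φ t) = WithZero.exp (-(s : ℤ)))
    (hg : ∀ x, w (g • x) = w x)
    (hgs : ∀ k : ℤ, (∀ x : L, (g ^ k) • x = x) ↔ (s : ℤ) ∣ k)
    (γ : Γ) :
    ∃ (v : Place K F) (e h : ℕ), 0 < v.ord t ∧ 0 < e ∧ 0 < h ∧ h * e = s ∧
      (∀ k : ℤ, γ⁻¹ * g ^ k * γ ∈ H ↔ (h : ℤ) ∣ k) ∧
      ∀ x : F, x ≠ 0 → -WithZero.log (w (γ • φ x)) = (e : ℤ) * v.ord x := by
  classical
  letI : Algebra F L := φ.toRingHom.toAlgebra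
  haveI : IsScalarTower K F L := IsScalarTower.of_algebraMap_eq (fun a => (φ.commutes a).symm)
  have hmap : ∀ x : F, algebraMap F L x = φ x := fun _ => rfl
  obtain ⟨v, e, hv, he, hve⟩ :=
    exists_place_ord_eq_of_smul t httr hfin ht hfix w s hwK hs hw γ
  have hcard := ramification_eq_card t httr hfin ht hfix H hH w s g hwK hs hw hg hgs v γ e hve
  have hgsH : γ⁻¹ * g ^ s * γ ∈ H := by
    rw [hH]
    intro x
    have h1 : ∀ y : L, (g ^ s) • y = y := by
      have := (hgs (s : ℤ)).mpr dvd_rfl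
      simpa using this
    rw [mul_smul, mul_smul, h1, inv_smul_smul]
  obtain ⟨h, hh, hhe, hmem⟩ := par_exists_width H g γ s hs hgsH
  rw [← hcard] at hhe
  exact ⟨v, e, h, hv, he, hh, hhe, hmem, hve⟩

end abstract

set_option maxHeartbeats 2000000 in
set_option synthInstance.maxHeartbeats 400000 in
/-- **PAR-b**: the place of `FC N` at the cusp `g ∞`: exact width `h`, index `e`, `h e = 2N`, and
the order of a ratio of forms. -/
theorem exists_cusp_place (N : ℕ) [NeZero N] (g : SL(2, ℤ)) :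
    ∃ (v : Place ℂ (F3I2.FC N)) (h e : ℕ), 0 < h ∧ 0 < e ∧ h * e = 2 * N ∧
      (∀ k : ℤ, g * ModularGroup.T ^ k * g⁻¹ ∈ Gamma0 N ↔ (h : ℤ) ∣ k) ∧
      ∀ (w : ℤ) (A B : ModularForm (Gamma0 N) w) (x : F3I2.FC N), A ≠ 0 → IsRatio N x A B →
        (e : ℤ) * v.ord x = ordInf (2 * N) (⇑A ∣[w] g) - ordInf (2 * N) (⇑B ∣[w] g) := by
  haveI : NeZero (2 * N) := ⟨Nat.mul_ne_zero two_ne_zero (NeZero.ne N)⟩
  have hM0 : 0 < 2 * N := by
    have := Nat.pos_of_ne_zero (NeZero.ne N)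
    omega
  obtain ⟨ht1, ht2, ht3, ht4⟩ := fibre_hyps_inv (phiC N) (jBar N) (jLL (2 * N)) (phiC_jBar N)
    (transcendental_jBar_aux N) (smul_jLL (2 * N))
    (Fermat.Agent.F3DictInv.mem_adjoin_jLL_of_invariant' (2 * N))
  obtain ⟨v, e, h, -, he, hh, hhe, hmem, hve⟩ := par_exists_place_of_point (phiC N)
    (jBar N)⁻¹ ht1 (exists_finiteIndex_fixing (2 * N)) ht2 ht3
    (Gamma0 N) (mem_Gamma0_iff_phiC N) (winfC (2 * N)) (2 * N) ModularGroup.T
    (fun a ha => winfC_algebraMap (2 * N) ha) hM0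
    (by rw [ht4, map_inv₀, winfC_jLL, ← WithZero.exp_neg])
    (fun x => winfC_T_smul (2 * N) x) (T_zpow_smul_eq_iff (2 * N)) g⁻¹
  refine ⟨v, h, e, hh, he, hhe, ?_, ?_⟩
  · intro k
    have := hmem k
    rwa [inv_inv] at this
  · intro w A B x hA hr
    have hx0 := ne_zero_of_isRatio N A B x hA hr
    rw [← hve x hx0]
    have h1 := Fermat.Agent.F3RatioCusp.ratioCusp_charts N g⁻¹ w A B x hA hr
    rw [inv_inv] at h1
    exact h1

end Fermat.Agent.EDescW
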