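/-
Cluster E' (Mazur descent), seat DESC-W, leaf W-PAR (helper68; parts: PAR-a helper51,
PAR-b helper7, PAR-c helper17, glue helper68).

**`IsTheta N n χ c` forces `χ` to be trivial on the elements of trace `± 2` of `Γ₀(N)`.**
-/
import Fermat.Agent.E.Desc.W.ParGlue
import Fermat.Agent.E.Desc.W.ParGroup
import Fermat.Agent.E.Desc.W.ParPlace
import Fermat.Agent.E.Desc.W.ParAn

set_option autoImplicit false

noncomputable section

namespace Fermat.Agent.EDescW

open UpperHalfPlane CongruenceSubgroup ModularForm ModularCurve AlgebraicCurve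
open Fermat.Agent.F3I2 Fermat.Agent.F3EC
open scoped MatrixGroups ModularForm Manifold

theorem parGroupStatement : ParGroupStatement := fun γ h => exists_conj_T_zpow γ h

theorem parPlaceStatement (N : ℕ) [NeZero N] : ParPlaceStatement N := fun g =>
  exists_cusp_place N g

theorem parAnStatement : ParAnStatement := fun _ _ hh hn _ hF hFb hF0 _ hζ hper hdvd =>
  par_root_eq_one hh hn hF hFb hF0 hζ hper hdvd

/-- **W-PAR**: the character of a theta class is trivial on the elements of trace `± 2`. -/
theorem isTheta_parabolic {N n : ℕ} [NeZero N] (hn : n ≠ 0) {χ : ↥(Gamma0 N) →* ℂˣ}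
    {c : Pic0 ℂ (FC N)} (h : IsTheta N n χ c) {γ : ↥(Gamma0 N)} (hγ : IsPar γ) : χ γ = 1 :=
  isTheta_parabolic_of parGroupStatement (parPlaceStatement N) parAnStatement hn h hγ

end Fermat.Agent.EDescW
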