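/-
Cluster E' (Mazur descent), seat DESC-W (helper34): the leaves plugged in.

* `thetaConjStatement N : ThetaConjStatement N`  (W-K1, helper17)
* `parStatement N : ParStatement N`              (W-PAR, helper68 + helper51, helper7, helper17)
* `eisOrd_of_swap`, `eisReal_of_swap` : `EisOrd`, `EisReal` from `SwapStatement N` alone.
-/
import Fermat.Agent.E.Desc.W.Main
import Fermat.Agent.E.Desc.W.Par
import Fermat.Agent.E.Desc.W.ThetaConj

set_option autoImplicit false

noncomputable section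

namespace Fermat.Agent.EDescW

open ModularCurve ModularCurve.Period CongruenceSubgroup AlgebraicCurve
open Fermat.Agent.F3I2 Fermat.Agent.F3EC Fermat.Agent.EDesc
open scoped MatrixGroups

/-- **W-K1**, as a statement. -/
theorem thetaConjStatement (N : ℕ) [NeZero N] : ThetaConjStatement N :=
  fun _ _ _ h => isTheta_conj h

/-- **W-PAR**, as a statement. -/
theorem parStatement (N : ℕ) [NeZero N] : ParStatement N :=
  fun _ hn _ _ h _ hγ => isTheta_parabolic hn h hγ

/-- the primes outside `S ∋ N` do not divide the prime `N`. -/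
theorem out_not_dvd_prime {N : ℕ} (hN : N.Prime) {S : Finset ℕ} (hNS : N ∈ S) (r : Nat.Primes)
    (hr : (r : ℕ) ∉ S) : ¬ (r : ℕ) ∣ N := fun hd =>
  hr (((Nat.prime_dvd_prime_iff_eq r.2 hN).mp hd) ▸ hNS)

/-- **EisOrd** (odd `l'`) from W-SWAP alone. -/
theorem eisOrd_of_swap {N : ℕ} [NeZero N] (hSwap : SwapStatement N) {l' : ℕ} (hl : l'.Prime)
    (hl2 : l' ≠ 2) {S : Finset ℕ} (hNS : ∀ r : Nat.Primes, (r : ℕ) ∉ S → ¬ (r : ℕ) ∣ N) :
    EisOrd N l' S :=
  eisOrd_of (thetaConjStatement N) (parStatement N) hSwap hl hl2 hNS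

/-- **EisReal** (every prime `l'`) from W-SWAP alone. -/
theorem eisReal_of_swap {N : ℕ} [NeZero N] (hSwap : SwapStatement N) {l' : ℕ} (hl : l'.Prime)
    {S : Finset ℕ} (hNS : ∀ r : Nat.Primes, (r : ℕ) ∉ S → ¬ (r : ℕ) ∣ N) :
    EisReal N complexConjugation l' S :=
  eisReal_of (thetaConjStatement N) (parStatement N) hSwap hl hNS

end Fermat.Agent.EDescW
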