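import Fermat.Agent.E.Desc.W.SwapLin
import Fermat.Agent.E.Desc.W.Core
import Fermat.Agent.F3.EigenPadic.Theta
import Fermat.Agent.F3.EigenChar.Involution

/-!
# Cluster E' (descent), leaf W-SWAP (helper17): the swap of the two Eichler–Shimura summands

`periodHomPair N (f, g) = (1 + J) P f + (1 - J) P g` is an isomorphism `S₂ × S₂ ≃ ℂ ⊗ HomPar N`
(S21).  `Ψ := (f, g) ↦ (g, f)` commutes with the Hecke operators and anticommutes with `J`
(`J ↔ (f, g) ↦ (f, -g)`).  By `exists_swap_of_complex` it descends to `HomPar N`.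
-/

set_option autoImplicit false
set_option linter.unusedSectionVars false
set_option linter.unusedVariables false

noncomputable section

namespace Fermat.Agent.EDescW

open CongruenceSubgroup ModularCurve ModularCurve.Period
open Fermat.Agent.F3EC Fermat.Agent.F3EP
open scoped TensorProduct MatrixGroups

variable (N : ℕ) [NeZero N]

local notation "S₂" => CuspForm (Gamma0 N) 2

/-- the swap on `ℂ ⊗ HomPar N`. -/
def swapAllC : (ℂ ⊗[ℤ] HomPar N) ≃ₗ[ℂ] (ℂ ⊗[ℤ] HomPar N) :=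
  (periodEquiv N).symm ≪≫ₗ (LinearEquiv.prodComm ℂ S₂ S₂) ≪≫ₗ periodEquiv N

theorem swapAll_periodEquiv (f g : S₂) : swapAllC N (periodEquiv N (f, g)) = periodEquiv N (g, f) := by
  unfold swapAllC
  simp only [LinearEquiv.trans_apply, LinearEquiv.symm_apply_apply]
  rfl

theorem swapAll_heckeInvolutionComm : HeckeInvolutionComm N :=
  fun ℓ _ hℓN c => heckeHomAll_charInvolution hℓN c

theorem swapAll_hecke (ℓ : Nat.Primes) (hℓN : ¬ (ℓ : ℕ) ∣ N) (t : ℂ ⊗[ℤ] HomPar N) :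
    swapAllC N ((heckeHom N ℓ).baseChange ℂ t) = (heckeHom N ℓ).baseChange ℂ (swapAllC N t) := by
  have h := tauHom_heckeTLin N (swapAll_heckeInvolutionComm N) ℓ.2 hℓN
  have e : (heckeHom N ℓ).baseChange ℂ = tauHom N (CuspForm.heckeTLin 2 ℓ.2 hℓN) := h.symm
  rw [e]
  obtain ⟨⟨f, g⟩, rfl⟩ := (periodEquiv N).surjective t
  have h1 : tauHom N (CuspForm.heckeTLin 2 ℓ.2 hℓN) (periodEquiv N (f, g)) =
      periodEquiv N (CuspForm.heckeTLin 2 ℓ.2 hℓN f, CuspForm.heckeTLin 2 ℓ.2 hℓN g) := by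
    rw [tauHom_apply, LinearEquiv.symm_apply_apply, LinearMap.prodMap_apply]
  have h2 : tauHom N (CuspForm.heckeTLin 2 ℓ.2 hℓN) (periodEquiv N (g, f)) =
      periodEquiv N (CuspForm.heckeTLin 2 ℓ.2 hℓN g, CuspForm.heckeTLin 2 ℓ.2 hℓN f) := by
    rw [tauHom_apply, LinearEquiv.symm_apply_apply, LinearMap.prodMap_apply]
  rw [h1, swapAll_periodEquiv, swapAll_periodEquiv, h2]

theorem swapAll_compMap_conjHom (t : ℂ ⊗[ℤ] HomPar N) :
    compMap N ((conjHom N).baseChange ℂ t) = charInvolution N ℂ ℂ (compMap N t) := by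
  induction t using TensorProduct.induction_on with
  | zero => simp
  | tmul z c =>
    refine AddMonoidHom.ext fun γ => ?_
    obtain ⟨γ, rfl⟩ := Additive.ofMul.surjective γ
    rw [LinearMap.baseChange_tmul, compMap_tmul, charInvolution_apply, compMap_tmul]
    rfl
  | add x y hx hy => simp only [map_add, hx, hy]

theorem swapAll_periodEquiv_conj (f g : S₂) :
    (conjHom N).baseChange ℂ (periodEquiv N (f, g)) = periodEquiv N (f, -g) := by
  apply compMap_injective N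
  rw [swapAll_compMap_conjHom, compMap_periodEquiv, compMap_periodEquiv,
    Fermat.Agent.S21.periodHomPair_apply, Fermat.Agent.S21.periodHomPair_apply]
  obtain ⟨pml, hpml⟩ := Fermat.Agent.S21.existsPeriodMapLinear N
  rw [← hpml, ← hpml, ← hpml, map_neg]
  simp only [map_add, map_sub, map_neg, charInvolution_charInvolution]
  abel

theorem swapAll_conj (t : ℂ ⊗[ℤ] HomPar N) :
    swapAllC N ((conjHom N).baseChange ℂ t) = - (conjHom N).baseChange ℂ (swapAllC N t) := by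
  obtain ⟨⟨f, g⟩, rfl⟩ := (periodEquiv N).surjective t
  rw [swapAll_periodEquiv_conj, swapAll_periodEquiv, swapAll_periodEquiv, swapAll_periodEquiv_conj, ← map_neg]
  congr 1
  ext <;> simp

/-- **W-SWAP.** -/
theorem swapStatement_all : SwapStatement N := by
  obtain ⟨ψ, ψ', d, hd, h1, h2, h3⟩ := exists_swap_of_complex
    (H := HomPar N) (ι := {ℓ : Nat.Primes // ¬ (ℓ : ℕ) ∣ N})
    (fun ℓ => heckeHom N ℓ.1) (conjHom N) (swapAllC N)
    (fun ℓ t => swapAll_hecke N ℓ.1 ℓ.2 t) (swapAll_conj N)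
  exact ⟨ψ, ψ', d, hd, h1, fun ℓ hℓ c => h2 ⟨ℓ, hℓ⟩ c, h3⟩

/-- the same in the shape of helper34's note. -/
theorem exists_swap_all :
    ∃ (ψ ψ' : HomPar N →ₗ[ℤ] HomPar N) (d : ℕ), 0 < d ∧ (∀ c, ψ' (ψ c) = d • c) ∧
      (∀ ℓ : Nat.Primes, ¬ (ℓ : ℕ) ∣ N → ∀ c, ψ (heckeHom N ℓ c) = heckeHom N ℓ (ψ c)) ∧
      (∀ c, ψ (conjHom N c) = -conjHom N (ψ c)) :=
  swapStatement_all N

end Fermat.Agent.EDescW
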