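/-
Cluster E' (Mazur descent), seat DESC-W (helper34): DESC-W CLOSED.

* `eisOrd`  : `EisOrd N l' S`  for an odd prime `l'` (every prime outside `S` is prime to `N`);
* `eisReal` : `EisReal N complexConjugation l' S` for every prime `l'` (in particular `l' = 2`);
* `eisOrd_prime`, `eisReal_prime` : the same for a prime level `N ∈ S`.
Leaves: W-K1, W-K2 (helper17), W-CHAIN (helper51), W-RAT, W-PAR (helper68, helper51, helper7,
helper17), W-LIFT (helper90), W-SWAP (helper17, helper90).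
-/
import Fermat.Agent.E.Desc.W.Final
import Fermat.Agent.E.Desc.W.SwapAll

set_option autoImplicit false

noncomputable section

namespace Fermat.Agent.EDescW

open ModularCurve ModularCurve.Period CongruenceSubgroup AlgebraicCurve
open Fermat.Agent.F3I2 Fermat.Agent.F3EC Fermat.Agent.EDesc
open scoped MatrixGroups

/-- **EisOrd** (odd `l'`), unconditional. -/
theorem eisOrd {N : ℕ} [NeZero N] {l' : ℕ} (hl : l'.Prime) (hl2 : l' ≠ 2) {S : Finset ℕ}
    (hNS : ∀ r : Nat.Primes, (r : ℕ) ∉ S → ¬ (r : ℕ) ∣ N) : EisOrd N l' S :=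
  eisOrd_of_swap (swapStatement_all N) hl hl2 hNS

/-- **EisReal** (every prime `l'`), unconditional. -/
theorem eisReal {N : ℕ} [NeZero N] {l' : ℕ} (hl : l'.Prime) {S : Finset ℕ}
    (hNS : ∀ r : Nat.Primes, (r : ℕ) ∉ S → ¬ (r : ℕ) ∣ N) :
    EisReal N complexConjugation l' S :=
  eisReal_of_swap (swapStatement_all N) hl hNS

/-- **EisOrd** at a prime level `N ∈ S`. -/
theorem eisOrd_prime {N : ℕ} [NeZero N] (hN : N.Prime) {l' : ℕ} (hl : l'.Prime) (hl2 : l' ≠ 2)
    {S : Finset ℕ} (hNS : N ∈ S) : EisOrd N l' S :=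
  eisOrd hl hl2 (out_not_dvd_prime hN hNS)

/-- **EisReal** at a prime level `N ∈ S`. -/
theorem eisReal_prime {N : ℕ} [NeZero N] (hN : N.Prime) {l' : ℕ} (hl : l'.Prime)
    {S : Finset ℕ} (hNS : N ∈ S) : EisReal N complexConjugation l' S :=
  eisReal hl (out_not_dvd_prime hN hNS)

end Fermat.Agent.EDescW
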