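import Mathlib

/-!
# E' / Desc / W / LiftCore : lifting characters of a finitely generated group (helper90)

`G` a finitely generated group, `P ⊆ G`.  There is `e > 0` such that for every commutative group
`Y`, every `ζ ∈ Y` and every character `χ : G →* Y` with values in `⟨ζ⟩`, trivial on `P`, the
character `χ ^ e` is `g ↦ ζ ^ c g` for a homomorphism `c : G → ℤ` vanishing on `P`.

Proof: `A = G^ab / ⟨P⟩` is a finitely generated abelian group, `e = #A_tors`, `A / A_tors` is free
(projective), and `χ ^ e` factors through it.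
-/

set_option autoImplicit false
set_option linter.unusedSectionVars false
set_option linter.style.haveILetI false

namespace Fermat.Agent.EDescW

open Submodule

/-- **lifting characters up to a bounded exponent**. -/
theorem exists_exponent_lift (G : Type*) [Group G] (hG : Group.FG G) (P : Set G) :
    ∃ e : ℕ, 0 < e ∧ ∀ (Y : Type) [CommGroup Y] (ζ : Y) (χ : G →* Y),
      (∀ g, χ g ∈ Subgroup.zpowers ζ) → (∀ g ∈ P, χ g = 1) →
      ∃ c : Additive G →+ ℤ, (∀ g ∈ P, c (Additive.ofMul g) = 0) ∧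
        ∀ g, ζ ^ (c (Additive.ofMul g)) = χ g ^ e := by
  classical
  -- the abelian group `A = G^ab / ⟨P⟩`
  let M := Additive (Abelianization G)
  let q₀ : Additive G →+ M := MonoidHom.toAdditive (Abelianization.of (G := G))
  have hof : Function.Surjective (Abelianization.of (G := G)) := fun x =>
    QuotientGroup.mk_surjective x
  have hq₀ : Function.Surjective q₀ := fun m => by
    obtain ⟨g, hg⟩ := hof (Additive.toMul m)
    exact ⟨Additive.ofMul g, congrArg Additive.ofMul hg⟩
  haveI : Group.FG (Abelianization G) := by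
    haveI := hG
    exact Group.fg_of_surjective (f := Abelianization.of (G := G)) hof
  haveI : AddGroup.FG M := inferInstance
  haveI : Module.Finite ℤ M := Module.Finite.iff_addGroup_fg.mpr inferInstance
  let P' : Submodule ℤ M := span ℤ ((fun g => q₀ (Additive.ofMul g)) '' P)
  let T : Submodule ℤ (M ⧸ P') := torsion ℤ (M ⧸ P')
  haveI : Finite T := Module.finite_of_fg_torsion _ (torsion_isTorsion)
  refine ⟨Nat.card T, Nat.card_pos, fun Y _ ζ χ hχ hP => ?_⟩
  -- the character on `M`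
  let φ₀ : M →ₗ[ℤ] Additive Y :=
    (MonoidHom.toAdditive (Abelianization.lift χ)).toIntLinearMap
  have hφ₀ : ∀ g : G, φ₀ (q₀ (Additive.ofMul g)) = Additive.ofMul (χ g) := fun g => by
    show Additive.ofMul (Abelianization.lift χ (Abelianization.of g)) = _
    rw [Abelianization.lift_apply_of]
  have hP' : P' ≤ LinearMap.ker φ₀ := by
    refine span_le.2 ?_
    rintro _ ⟨g, hg, rfl⟩
    show φ₀ (q₀ (Additive.ofMul g)) = 0
    rw [hφ₀, hP g hg]
    rfl
  let φ₁ : (M ⧸ P') →ₗ[ℤ] Additive Y := P'.liftQ φ₀ hP'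
  have hT : T ≤ LinearMap.ker ((Nat.card T : ℤ) • φ₁) := by
    intro t ht
    have h1 : (Nat.card T) • (⟨t, ht⟩ : T) = 0 := card_nsmul_eq_zero'
    have h2 : (Nat.card T) • t = 0 := congrArg Subtype.val h1
    show ((Nat.card T : ℤ) • φ₁) t = 0
    rw [LinearMap.smul_apply, ← map_smul, natCast_zsmul, h2, map_zero]
  let φ₂ : ((M ⧸ P') ⧸ T) →ₗ[ℤ] Additive Y := T.liftQ ((Nat.card T : ℤ) • φ₁) hT
  -- the target `⟨ζ⟩`
  let π : ℤ →ₗ[ℤ] Additive Y := LinearMap.toSpanSingleton ℤ (Additive Y) (Additive.ofMul ζ)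
  have hπ : ∀ k : ℤ, π k = Additive.ofMul (ζ ^ k) := fun k => by
    show k • Additive.ofMul ζ = _
    rfl
  have hrange : ∀ b, φ₂ b ∈ LinearMap.range π := by
    intro b
    obtain ⟨a, rfl⟩ := T.mkQ_surjective b
    obtain ⟨m, rfl⟩ := P'.mkQ_surjective a
    obtain ⟨g, rfl⟩ := hq₀ m
    obtain ⟨k, hk⟩ := hχ (Additive.toMul g)
    refine ⟨(Nat.card T : ℤ) * k, ?_⟩
    show _ = ((Nat.card T : ℤ) • φ₁) (P'.mkQ (q₀ g))
    rw [LinearMap.smul_apply]
    show _ = (Nat.card T : ℤ) • φ₀ (q₀ g)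
    have hg : φ₀ (q₀ g) = Additive.ofMul (χ (Additive.toMul g)) := hφ₀ (Additive.toMul g)
    rw [hg, ← hk, ← hπ, ← map_smul, smul_eq_mul]
  -- lift along `π`
  obtain ⟨ψ, hψ⟩ := Module.projective_lifting_property (LinearMap.rangeRestrict π)
    (LinearMap.codRestrict (LinearMap.range π) φ₂ hrange)
    (LinearMap.surjective_rangeRestrict π)
  have hψ' : ∀ b, π (ψ b) = φ₂ b := fun b => by
    have := congrArg (fun f => ((f b : LinearMap.range π) : Additive Y)) hψ
    exact this
  let c : Additive G →+ ℤ :=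
    (ψ.toAddMonoidHom.comp (T.mkQ.toAddMonoidHom.comp P'.mkQ.toAddMonoidHom)).comp q₀
  refine ⟨c, fun g hg => ?_, fun g => ?_⟩
  · show ψ (T.mkQ (P'.mkQ (q₀ (Additive.ofMul g)))) = 0
    have : P'.mkQ (q₀ (Additive.ofMul g)) = 0 := by
      rw [mkQ_apply, Quotient.mk_eq_zero]
      exact subset_span ⟨g, hg, rfl⟩
    rw [this, map_zero, map_zero]
  · have h1 : π (c (Additive.ofMul g)) = φ₂ (T.mkQ (P'.mkQ (q₀ (Additive.ofMul g)))) :=
      hψ' _
    have h2 : φ₂ (T.mkQ (P'.mkQ (q₀ (Additive.ofMul g)))) =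
        (Nat.card T : ℤ) • φ₀ (q₀ (Additive.ofMul g)) := rfl
    rw [hπ, h2, hφ₀, natCast_zsmul] at h1
    exact congrArg Additive.toMul h1

end Fermat.Agent.EDescW
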