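/-
Cluster E' (Mazur descent), seat DESC-W, leaf W-RAT (pure linear algebra; architect helper34).

An invertible COMPLEX matrix intertwining two families of INTEGER matrices can be replaced by an
integer matrix with nonzero determinant.

Proof sketch: the entries of `Ψ` span a finite-dimensional `ℚ`-subspace of `ℂ`; with a `ℚ`-basis
`z₁, …, z_r` of it, `Ψ = Σ z_k Ψ_k`, `Ψ_k` rational.  By linear independence every `Ψ_k` intertwines.
`det (Σ x_k Ψ_k)` is a polynomial over `ℚ` which does not vanish at `x = z`, so it does not vanish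
at some rational point (`MvPolynomial.funext`); clear denominators.  `ψ' = det ψ • adjugate ψ`,
`d = (det ψ)²`.
-/
import Mathlib

set_option autoImplicit false

namespace Fermat.Agent.EDescW

/-- clearing the denominators of a rational matrix. -/
theorem rat_exists_int_multiple {m : ℕ} (X : Matrix (Fin m) (Fin m) ℚ) :
    ∃ (D : ℕ) (Y : Matrix (Fin m) (Fin m) ℤ), 0 < D ∧
      Y.map (Int.castRingHom ℚ) = (D : ℚ) • X := by
  classical
  obtain ⟨D, hDdef⟩ : ∃ D : ℕ, D = ∏ p : Fin m × Fin m, (X p.1 p.2).den := ⟨_, rfl⟩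
  have hD : 0 < D := by
    rw [hDdef]
    exact Finset.prod_pos fun p _ => (X p.1 p.2).den_pos
  have key : ∀ a c, (((X a c).num * ((D / (X a c).den : ℕ) : ℤ) : ℤ) : ℚ) = (D : ℚ) * X a c := by
    intro a c
    have hdvd : (X a c).den ∣ D := by
      rw [hDdef]
      exact Finset.dvd_prod_of_mem (fun p : Fin m × Fin m => (X p.1 p.2).den)
        (Finset.mem_univ (a, c))
    obtain ⟨t, ht⟩ := hdvd
    have hden : 0 < (X a c).den := (X a c).den_pos
    rw [ht, Nat.mul_div_cancel_left t hden]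
    push_cast
    have h1 := Rat.mul_den_eq_num (X a c)
    rw [← h1]
    ring
  refine ⟨D, Matrix.of fun a c => (X a c).num * ((D / (X a c).den : ℕ) : ℤ), hD, ?_⟩
  ext a c
  rw [Matrix.map_apply, Matrix.of_apply, Matrix.smul_apply, smul_eq_mul, Int.coe_castRingHom]
  exact key a c

/-- the rational step: a rational intertwiner with nonzero determinant. -/
theorem exists_rat_intertwiner {m : ℕ} {ι : Type*} (A B : ι → Matrix (Fin m) (Fin m) ℤ)
    (Ψ : Matrix (Fin m) (Fin m) ℂ) (hdet : Ψ.det ≠ 0)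
    (h : ∀ i, Ψ * (A i).map (Int.castRingHom ℂ) = (B i).map (Int.castRingHom ℂ) * Ψ) :
    ∃ X : Matrix (Fin m) (Fin m) ℚ, X.det ≠ 0 ∧
      ∀ i, X * (A i).map (Int.castRingHom ℚ) = (B i).map (Int.castRingHom ℚ) * X := by
  classical
  let b := Module.Basis.ofVectorSpace ℚ ℂ
  let T : Finset (Module.Basis.ofVectorSpaceIndex ℚ ℂ) :=
    Finset.univ.biUnion (fun p : Fin m × Fin m => (b.repr (Ψ p.1 p.2)).support)
  let Φ : Module.Basis.ofVectorSpaceIndex ℚ ℂ → Matrix (Fin m) (Fin m) ℚ :=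
    fun k a c => b.repr (Ψ a c) k
  have hΨ : ∀ a c, Ψ a c = ∑ k ∈ T, (Φ k a c : ℂ) * (b k) := by
    intro a c
    have h1 := b.linearCombination_repr (Ψ a c)
    rw [Finsupp.linearCombination_apply, Finsupp.sum] at h1
    have hsub : (b.repr (Ψ a c)).support ⊆ T := by
      intro k hk
      exact Finset.mem_biUnion.mpr ⟨(a, c), Finset.mem_univ _, hk⟩
    rw [Finset.sum_subset hsub] at h1
    · rw [← h1]
      refine Finset.sum_congr rfl fun k _ => ?_
      rw [Algebra.smul_def]
      rfl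
    · intro k _ hk
      rw [Finsupp.notMem_support_iff.mp hk, zero_smul]
  have hΦ : ∀ k i, Φ k * (A i).map (Int.castRingHom ℚ) = (B i).map (Int.castRingHom ℚ) * Φ k := by
    intro k i
    ext a c
    have h1 := congrFun (congrFun (h i) a) c
    rw [Matrix.mul_apply, Matrix.mul_apply] at h1 ⊢
    have h2 := congrArg (b.coord k) h1
    rw [map_sum, map_sum] at h2
    have e1 : ∀ e, b.coord k (Ψ a e * ((A i).map (Int.castRingHom ℂ)) e c) =
        Φ k a e * ((A i).map (Int.castRingHom ℚ)) e c := by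
      intro e
      rw [Matrix.map_apply, Matrix.map_apply, Int.coe_castRingHom, Int.coe_castRingHom,
        ← zsmul_eq_mul', map_zsmul, zsmul_eq_mul']
      rfl
    have e2 : ∀ e, b.coord k (((B i).map (Int.castRingHom ℂ)) a e * Ψ e c) =
        ((B i).map (Int.castRingHom ℚ)) a e * Φ k e c := by
      intro e
      rw [Matrix.map_apply, Matrix.map_apply, Int.coe_castRingHom, Int.coe_castRingHom,
        ← zsmul_eq_mul, map_zsmul, zsmul_eq_mul]
      rfl
    simp only [e1, e2] at h2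
    exact h2
  let MX : Matrix (Fin m) (Fin m) (MvPolynomial (Module.Basis.ofVectorSpaceIndex ℚ ℂ) ℚ) :=
    fun a c => ∑ k ∈ T, MvPolynomial.C (Φ k a c) * MvPolynomial.X k
  have hP : MX.det ≠ 0 := by
    intro hP0
    apply hdet
    have h1 : (MvPolynomial.aeval (fun k => (b k : ℂ))) MX.det = Ψ.det := by
      rw [AlgHom.map_det]
      congr 1
      ext a c
      rw [AlgHom.mapMatrix_apply, Matrix.map_apply, hΨ a c]
      simp only [MX, map_sum, map_mul, MvPolynomial.aeval_C, MvPolynomial.aeval_X]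
      rfl
    rw [← h1, hP0, map_zero]
  obtain ⟨q, hq⟩ : ∃ q : Module.Basis.ofVectorSpaceIndex ℚ ℂ → ℚ,
      MvPolynomial.eval q MX.det ≠ 0 := by
    by_contra hcon
    push Not at hcon
    exact hP (MvPolynomial.funext (fun x => by rw [hcon x, map_zero]))
  refine ⟨∑ k ∈ T, q k • Φ k, ?_, ?_⟩
  · have h1 : MvPolynomial.eval q MX.det = (∑ k ∈ T, q k • Φ k).det := by
      rw [RingHom.map_det]
      congr 1
      ext a c
      rw [RingHom.mapMatrix_apply, Matrix.map_apply, Matrix.sum_apply]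
      simp only [MX, map_sum, map_mul, MvPolynomial.eval_C, MvPolynomial.eval_X,
        Matrix.smul_apply, smul_eq_mul]
      refine Finset.sum_congr rfl fun k _ => ?_
      rw [mul_comm]
    rw [← h1]
    exact hq
  · intro i
    rw [Finset.sum_mul, Finset.mul_sum]
    refine Finset.sum_congr rfl fun k _ => ?_
    rw [Matrix.smul_mul, Matrix.mul_smul, hΦ k i]

theorem exists_int_intertwiner {m : ℕ} {ι : Type*} (A B : ι → Matrix (Fin m) (Fin m) ℤ)
    (Ψ : Matrix (Fin m) (Fin m) ℂ) (hdet : Ψ.det ≠ 0)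
    (h : ∀ i, Ψ * (A i).map (Int.castRingHom ℂ) = (B i).map (Int.castRingHom ℂ) * Ψ) :
    ∃ (ψ ψ' : Matrix (Fin m) (Fin m) ℤ) (d : ℕ), 0 < d ∧
      ψ' * ψ = (d : ℤ) • (1 : Matrix (Fin m) (Fin m) ℤ) ∧ ∀ i, ψ * A i = B i * ψ := by
  classical
  obtain ⟨X, hXdet, hX⟩ := exists_rat_intertwiner A B Ψ hdet h
  obtain ⟨D, ψ, hD, hψ⟩ := rat_exists_int_multiple X
  have hD0 : (D : ℚ) ≠ 0 := by exact_mod_cast hD.ne'
  have hinj : Function.Injective (fun M : Matrix (Fin m) (Fin m) ℤ => M.map (Int.castRingHom ℚ)) :=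
    Matrix.map_injective (RingHom.injective_int (Int.castRingHom ℚ))
  have hψdet : ψ.det ≠ 0 := by
    intro h0
    have h1 : (ψ.map (Int.castRingHom ℚ)).det = 0 := by
      have := (Int.castRingHom ℚ).map_det ψ
      rw [RingHom.mapMatrix_apply] at this
      rw [← this, h0, map_zero]
    rw [hψ, Matrix.det_smul] at h1
    rcases mul_eq_zero.mp h1 with h2 | h2
    · exact pow_ne_zero _ hD0 h2
    · exact hXdet h2
  have hint : ∀ i, ψ * A i = B i * ψ := by
    intro i
    apply hinj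
    show (ψ * A i).map (Int.castRingHom ℚ) = (B i * ψ).map (Int.castRingHom ℚ)
    rw [Matrix.map_mul, Matrix.map_mul, hψ, Matrix.smul_mul, Matrix.mul_smul, hX i]
  refine ⟨ψ, ψ.det • ψ.adjugate, ψ.det.natAbs ^ 2, pow_pos (Int.natAbs_pos.mpr hψdet) 2, ?_, hint⟩
  rw [Matrix.smul_mul, Matrix.adjugate_mul, smul_smul]
  congr 1
  push_cast
  rw [sq_abs, sq]

end Fermat.Agent.EDescW
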