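import Mathlib
import Fermat.Agent.E.Desc.W.Rat

/-!
# Cluster E' (descent), leaf W-SWAP, generic half (helper17)

`H` a free `ℤ`-module of finite rank with endomorphisms `T i`, `J`; a `ℂ`-linear automorphism `Ψ` of
`ℂ ⊗ H` commuting with the `T i` and anticommuting with `J` descends, up to a positive integer
`d`, to `ℤ`-linear maps `ψ, ψ' : H → H` with `ψ' ψ = d`, `ψ T i = T i ψ`, `ψ J = - J ψ`
(W-RAT `exists_int_intertwiner` in a basis).
-/

set_option autoImplicit false
set_option linter.unusedSectionVars false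
set_option linter.unusedVariables false

noncomputable section

namespace Fermat.Agent.EDescW

open TensorProduct

theorem exists_swap_of_complex {H : Type*} [AddCommGroup H] [Module.Free ℤ H] [Module.Finite ℤ H]
    {ι : Type*} (T : ι → H →ₗ[ℤ] H) (J : H →ₗ[ℤ] H)
    (Ψ : (ℂ ⊗[ℤ] H) ≃ₗ[ℂ] (ℂ ⊗[ℤ] H))
    (hT : ∀ i t, Ψ ((T i).baseChange ℂ t) = (T i).baseChange ℂ (Ψ t))
    (hJ : ∀ t, Ψ (J.baseChange ℂ t) = - J.baseChange ℂ (Ψ t)) :
    ∃ (ψ ψ' : H →ₗ[ℤ] H) (d : ℕ), 0 < d ∧ (∀ c, ψ' (ψ c) = d • c) ∧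
      (∀ i c, ψ (T i c) = T i (ψ c)) ∧ (∀ c, ψ (J c) = - J (ψ c)) := by
  classical
  set m := Module.finrank ℤ H with hm
  let b : Module.Basis (Fin m) ℤ H := Module.finBasis ℤ H
  let bC : Module.Basis (Fin m) ℂ (ℂ ⊗[ℤ] H) := Algebra.TensorProduct.basis ℂ b
  let A : Option ι → Matrix (Fin m) (Fin m) ℤ := fun k =>
    match k with
    | some i => LinearMap.toMatrix b b (T i)
    | none => LinearMap.toMatrix b b J
  let B : Option ι → Matrix (Fin m) (Fin m) ℤ := fun k =>
    match k with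
    | some i => LinearMap.toMatrix b b (T i)
    | none => - LinearMap.toMatrix b b J
  let P : Matrix (Fin m) (Fin m) ℂ := LinearMap.toMatrix bC bC (Ψ : (ℂ ⊗[ℤ] H) →ₗ[ℂ] (ℂ ⊗[ℤ] H))
  have hbc : ∀ f : H →ₗ[ℤ] H, LinearMap.toMatrix bC bC (f.baseChange ℂ) =
      (LinearMap.toMatrix b b f).map (Int.castRingHom ℂ) := by
    intro f
    have := LinearMap.toMatrix_baseChange ℂ f b b
    rw [algebraMap_int_eq] at this
    exact this
  have hdet : P.det ≠ 0 := by
    have h1 : P.det = LinearMap.det (Ψ : (ℂ ⊗[ℤ] H) →ₗ[ℂ] (ℂ ⊗[ℤ] H)) :=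
      LinearMap.det_toMatrix bC _
    rw [h1]
    exact (LinearEquiv.isUnit_det' Ψ).ne_zero
  have hcomm : ∀ k, P * (A k).map (Int.castRingHom ℂ) = (B k).map (Int.castRingHom ℂ) * P := by
    intro k
    cases k with
    | some i =>
      show P * (LinearMap.toMatrix b b (T i)).map (Int.castRingHom ℂ) =
        (LinearMap.toMatrix b b (T i)).map (Int.castRingHom ℂ) * P
      rw [← hbc, ← LinearMap.toMatrix_comp bC bC bC, ← LinearMap.toMatrix_comp bC bC bC]
      congr 1
      ext t
      exact hT i _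
    | none =>
      show P * (LinearMap.toMatrix b b J).map (Int.castRingHom ℂ) =
        (- LinearMap.toMatrix b b J).map (Int.castRingHom ℂ) * P
      have e : (- LinearMap.toMatrix b b J).map (Int.castRingHom ℂ) =
          - (LinearMap.toMatrix b b J).map (Int.castRingHom ℂ) := by
        ext i j
        simp
      rw [e, ← hbc, neg_mul, ← LinearMap.toMatrix_comp bC bC bC, ← LinearMap.toMatrix_comp bC bC bC,
        ← map_neg]
      congr 1
      ext t
      simpa using hJ (1 ⊗ₜ t)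
  obtain ⟨ψm, ψm', d, hd, hmul, hint⟩ := exists_int_intertwiner A B P hdet hcomm
  refine ⟨Matrix.toLin b b ψm, Matrix.toLin b b ψm', d, hd, fun c => ?_, fun i c => ?_, fun c => ?_⟩
  · have h1 : (Matrix.toLin b b ψm') ∘ₗ (Matrix.toLin b b ψm) = (d : ℤ) • LinearMap.id := by
      rw [← Matrix.toLin_mul b b b, hmul, map_smul, Matrix.toLin_one]
    have h2 := congrArg (fun f : H →ₗ[ℤ] H => f c) h1
    simpa using h2
  · have h1 : (Matrix.toLin b b ψm) ∘ₗ (T i) = (T i) ∘ₗ (Matrix.toLin b b ψm) := by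
      have h3 := hint (some i)
      have h4 : ψm * LinearMap.toMatrix b b (T i) = LinearMap.toMatrix b b (T i) * ψm := h3
      have h5 := congrArg (Matrix.toLin b b) h4
      rw [Matrix.toLin_mul b b b, Matrix.toLin_mul b b b, Matrix.toLin_toMatrix] at h5
      exact h5
    exact congrArg (fun f : H →ₗ[ℤ] H => f c) h1
  · have h1 : (Matrix.toLin b b ψm) ∘ₗ J = - (J ∘ₗ (Matrix.toLin b b ψm)) := by
      have h3 := hint none
      have h4 : ψm * LinearMap.toMatrix b b J = - LinearMap.toMatrix b b J * ψm := h3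
      have h5 := congrArg (Matrix.toLin b b) h4
      rw [Matrix.toLin_mul b b b, neg_mul, map_neg, Matrix.toLin_mul b b b,
        Matrix.toLin_toMatrix] at h5
      exact h5
    have h2 := congrArg (fun f : H →ₗ[ℤ] H => f c) h1
    simpa using h2

end Fermat.Agent.EDescW
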